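import Mathlib

/-!
# S13, piece P3': the key lemma in every residue characteristic (`(x, y)`-coordinates)

`K` is a field with a valuation `v`, `W` a Weierstrass curve over `K` with integral coefficients.
Two distinct affine points `P = (x, y)`, `P' = (x', y')` with `x' ≡ x`, `y' ≡ y` modulo the maximal
ideal, such that the reduction of `P` is nonsingular (`F_y(P)` or `F_x(P)` is a unit), differ by a
point with non-integral `x`-coordinate (`key_nonsing_any`).  No hypothesis on `v 2`.
-/

set_option autoImplicit false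
set_option linter.unusedSectionVars false
set_option linter.unusedVariables false

namespace Fermat.Agent.S13

open WeierstrassCurve WeierstrassCurve.Affine

variable {K : Type*} [Field K] [DecidableEq K]
variable {Γ₀ : Type*} [LinearOrderedCommGroupWithZero Γ₀] (v : Valuation K Γ₀)

/-- `F_y = 2y + a₁x + a₃`. -/
def polyY (W : WeierstrassCurve K) (x y : K) : K := 2 * y + W.a₁ * x + W.a₃

/-- `-F_x = 3x² + 2a₂x + a₄ - a₁y`. -/
def polyX (W : WeierstrassCurve K) (x y : K) : K := 3 * x ^ 2 + 2 * W.a₂ * x + W.a₄ - W.a₁ * y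

lemma sub_negY_eq_polyY (W : WeierstrassCurve K) (x y : K) :
    y - W.toAffine.negY x y = polyY W x y := by
  simp only [polyY, Affine.negY]; ring

lemma keyAny_val_two_le : v (2 : K) ≤ 1 := by
  have : (2 : K) = 1 + 1 := by norm_num
  rw [this]
  exact v.map_add_le (le_of_eq v.map_one) (le_of_eq v.map_one)

lemma keyAny_val_three_le : v (3 : K) ≤ 1 := by
  have : (3 : K) = 2 + 1 := by norm_num
  rw [this]
  exact v.map_add_le (keyAny_val_two_le v) (le_of_eq v.map_one)

lemma keyAny_mul_le_one {a b : K} (ha : v a ≤ 1) (hb : v b ≤ 1) : v (a * b) ≤ 1 := by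
  rw [map_mul]
  calc v a * v b ≤ 1 * 1 := mul_le_mul' ha hb
    _ = 1 := one_mul 1

lemma keyAny_mul_lt_one {a b : K} (ha : v a ≤ 1) (hb : v b < 1) : v (a * b) < 1 := by
  rw [map_mul]
  calc v a * v b ≤ 1 * v b := mul_le_mul' ha le_rfl
    _ = v b := one_mul _
    _ < 1 := hb

lemma keyAny_pow_le_one {a : K} (ha : v a ≤ 1) (n : ℕ) : v (a ^ n) ≤ 1 := by
  rw [map_pow]
  exact pow_le_one₀ zero_le ha

lemma polyY_val_le {W : WeierstrassCurve K} (h₁ : v W.a₁ ≤ 1) (h₃ : v W.a₃ ≤ 1) {x y : K}
    (hx : v x ≤ 1) (hy : v y ≤ 1) : v (polyY W x y) ≤ 1 := by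
  simp only [polyY]
  exact v.map_add_le (v.map_add_le (keyAny_mul_le_one v (keyAny_val_two_le v) hy)
    (keyAny_mul_le_one v h₁ hx)) h₃

/-- Subtraction of affine points with distinct `x`, in `(x, y)`-coordinates. -/
theorem sub_xy_of_X_ne {W : WeierstrassCurve K} {x y x' y' : K}
    (h : W.toAffine.Nonsingular x y) (h' : W.toAffine.Nonsingular x' y') (hne : x' ≠ x) :
    ∃ (x'' y'' : K) (h'' : W.toAffine.Nonsingular x'' y''),
      Point.some x' y' h' - Point.some x y h = Point.some x'' y'' h'' ∧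
      x'' = ((y' - W.toAffine.negY x y) / (x' - x)) ^ 2
        + W.a₁ * ((y' - W.toAffine.negY x y) / (x' - x)) - W.a₂ - x' - x := by
  have hn : W.toAffine.Nonsingular x (W.toAffine.negY x y) := (Affine.nonsingular_neg ..).mpr h
  have hxy : ¬(x' = x ∧ y' = W.toAffine.negY x (W.toAffine.negY x y)) := fun hh => hne hh.1
  refine ⟨_, _, Affine.nonsingular_add h' hn hxy, ?_, ?_⟩
  · rw [sub_eq_add_neg (Point.some x' y' h'), Point.neg_some]
    exact Point.add_some hxy
  · rw [Affine.slope_of_X_ne hne]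
    simp only [Affine.addX]

/-- Doubling of an affine point with `F_y ≠ 0`, in `(x, y)`-coordinates. -/
theorem dbl_xy_of_polyY_ne {W : WeierstrassCurve K} {x y : K}
    (h : W.toAffine.Nonsingular x y) (hη : polyY W x y ≠ 0) :
    ∃ (x'' y'' : K) (h'' : W.toAffine.Nonsingular x'' y''),
      Point.some x y h + Point.some x y h = Point.some x'' y'' h'' ∧
      x'' = (polyX W x y / polyY W x y) ^ 2
        + W.a₁ * (polyX W x y / polyY W x y) - W.a₂ - x - x := by
  have hy : y ≠ W.toAffine.negY x y := by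
    intro hy
    apply hη
    rw [← sub_negY_eq_polyY, sub_eq_zero]
    exact hy
  have hxy : ¬(x = x ∧ y = W.toAffine.negY x y) := fun hh => hy hh.2
  refine ⟨_, _, Affine.nonsingular_add h h hxy, Point.add_some hxy, ?_⟩
  rw [Affine.slope_of_Y_ne rfl hy, sub_negY_eq_polyY]
  simp only [Affine.addX, polyX]

/-- A non-integral slope gives a non-integral `x`-coordinate. -/
lemma keyAny_addX_val {W : WeierstrassCurve K} (h₁ : v W.a₁ ≤ 1) (h₂ : v W.a₂ ≤ 1)
    {x x' l : K} (hx : v x ≤ 1) (hx' : v x' ≤ 1) (hl : 1 < v l) :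
    1 < v (l ^ 2 + W.a₁ * l - W.a₂ - x' - x) := by
  have hl0 : 0 < v l := lt_trans zero_lt_one hl
  have hl2 : v l < v (l ^ 2) := by
    rw [map_pow, sq]
    calc v l = 1 * v l := (one_mul _).symm
      _ < v l * v l := mul_lt_mul_of_pos_right hl hl0
  have h1l2 : 1 < v (l ^ 2) := lt_trans hl hl2
  have ha : v (W.a₁ * l) < v (l ^ 2) := by
    rw [map_mul]
    calc v W.a₁ * v l ≤ 1 * v l := mul_le_mul' h₁ le_rfl
      _ = v l := one_mul _
      _ < v (l ^ 2) := hl2
  have e1 : v (l ^ 2 + W.a₁ * l) = v (l ^ 2) := v.map_add_eq_of_lt_left ha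
  have e2 : v (l ^ 2 + W.a₁ * l - W.a₂) = v (l ^ 2) := by
    rw [v.map_sub_eq_of_lt_left (by rw [e1]; exact lt_of_le_of_lt h₂ h1l2), e1]
  have e3 : v (l ^ 2 + W.a₁ * l - W.a₂ - x') = v (l ^ 2) := by
    rw [v.map_sub_eq_of_lt_left (by rw [e2]; exact lt_of_le_of_lt hx' h1l2), e2]
  rw [v.map_sub_eq_of_lt_left (by rw [e3]; exact lt_of_le_of_lt hx h1l2), e3]
  exact h1l2

/-- **Slope criterion** in `(x, y)`-coordinates, any residue characteristic. -/
theorem key_of_slope_any {W : WeierstrassCurve K} (h₁ : v W.a₁ ≤ 1) (h₂ : v W.a₂ ≤ 1)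
    {x y x' y' : K} (h : W.toAffine.Nonsingular x y) (h' : W.toAffine.Nonsingular x' y')
    (hx : v x ≤ 1) (hx' : v x' ≤ 1) (hne : x' ≠ x)
    (hlt : v (x' - x) < v (y' - W.toAffine.negY x y)) :
    ∃ (x'' y'' : K) (h'' : W.toAffine.Nonsingular x'' y''),
      Point.some x' y' h' - Point.some x y h = Point.some x'' y'' h'' ∧ 1 < v x'' := by
  obtain ⟨x₃, y₃, h₃, hsub, hX⟩ := sub_xy_of_X_ne h h' hne
  refine ⟨x₃, y₃, h₃, hsub, ?_⟩
  have hd0 : 0 < v (x' - x) := by
    rw [v.pos_iff]; exact sub_ne_zero.2 hne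
  have hsl : 1 < v ((y' - W.toAffine.negY x y) / (x' - x)) := by
    rw [map_div₀]
    exact (one_lt_div₀ hd0).2 hlt
  rw [hX]
  exact keyAny_addX_val v h₁ h₂ hx hx' hsl

/-- **Key lemma, nonsingular reduction, any residue characteristic.** -/
theorem key_nonsing_any {W : WeierstrassCurve K} (h₁ : v W.a₁ ≤ 1) (h₂ : v W.a₂ ≤ 1)
    (h₃ : v W.a₃ ≤ 1)
    {x y x' y' : K} (h : W.toAffine.Nonsingular x y) (h' : W.toAffine.Nonsingular x' y')
    (hx : v x ≤ 1) (hy : v y ≤ 1)
    (hxx : v (x' - x) < 1) (hyy : v (y' - y) < 1)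
    (hne : Point.some x' y' h' ≠ Point.some x y h)
    (hns : v (polyY W x y) = 1 ∨ v (polyX W x y) = 1) :
    ∃ (x'' y'' : K) (h'' : W.toAffine.Nonsingular x'' y''),
      Point.some x' y' h' - Point.some x y h = Point.some x'' y'' h'' ∧ 1 < v x'' := by
  have hx' : v x' ≤ 1 := by
    have : x' = (x' - x) + x := by ring
    rw [this]; exact v.map_add_le hxx.le hx
  have hηle : v (polyY W x y) ≤ 1 := polyY_val_le v h₁ h₃ hx hy
  have hd : v (polyY W x y) < 1 → v (polyX W x y) = 1 := by
    intro hlt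
    rcases hns with h1 | h1
    · exact absurd h1 hlt.ne
    · exact h1
  by_cases hxe : x' = x
  · -- then `y' = negY x y`, and `P' - P = -(P + P)`
    have hxe' : x = x' := hxe.symm
    subst hxe'
    have hyy' : y' = W.toAffine.negY x y := by
      rcases Affine.Y_eq_of_X_eq h'.1 h.1 rfl with h1 | h1
      · subst h1; exact absurd rfl hne
      · exact h1
    subst hyy'
    have hP' : Point.some x (W.toAffine.negY x y) h' = -Point.some x y h := by
      rw [Point.neg_some]
    have hηlt : v (polyY W x y) < 1 := by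
      have : W.toAffine.negY x y - y = -polyY W x y := by
        rw [← sub_negY_eq_polyY]; ring
      rw [this, v.map_neg] at hyy
      exact hyy
    have hη0 : polyY W x y ≠ 0 := by
      intro h0
      apply hne
      have : y = W.toAffine.negY x y := by
        rw [← sub_eq_zero, sub_negY_eq_polyY]; exact h0
      rw [hP', Point.neg_some]
      congr 1
      exact this.symm
    obtain ⟨x₃, y₃, h₃', hadd, hX⟩ := dbl_xy_of_polyY_ne h hη0
    have hsub : Point.some x (W.toAffine.negY x y) h' - Point.some x y h =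
        Point.some x₃ (W.toAffine.negY x₃ y₃) ((Affine.nonsingular_neg ..).mpr h₃') := by
      have hneg3 : Point.some x₃ (W.toAffine.negY x₃ y₃) ((Affine.nonsingular_neg ..).mpr h₃') =
          -(Point.some x y h + Point.some x y h) := by
        rw [hadd, Point.neg_some]
      rw [hP', hneg3]
      abel
    refine ⟨_, _, _, hsub, ?_⟩
    have hη0' : 0 < v (polyY W x y) := by rw [v.pos_iff]; exact hη0
    have hsl : 1 < v (polyX W x y / polyY W x y) := by
      rw [map_div₀, hd hηlt]
      exact (one_lt_div₀ hη0').2 hηlt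
    rw [hX]
    exact keyAny_addX_val v h₁ h₂ hx hx hsl
  · apply key_of_slope_any v h₁ h₂ h h' hx hx' hxe
    have hd0 : 0 < v (x' - x) := by
      rw [v.pos_iff]; exact sub_ne_zero.2 hxe
    have hD : y' - W.toAffine.negY x y = (y' - y) + polyY W x y := by
      rw [← sub_negY_eq_polyY]; ring
    by_cases hη1 : v (polyY W x y) = 1
    · rw [hD, v.map_add_eq_of_lt_right (by rw [hη1]; exact hyy), hη1]
      exact hxx
    · have hηlt : v (polyY W x y) < 1 := lt_of_le_of_ne hηle hη1
      have hFx := hd hηlt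
      -- `Q = x'² + x'x + x² + a₂(x' + x) + a₄ - a₁y` is a unit
      have hQ : v (x' ^ 2 + x' * x + x ^ 2 + W.a₂ * (x' + x) + W.a₄ - W.a₁ * y) = 1 := by
        have e : x' ^ 2 + x' * x + x ^ 2 + W.a₂ * (x' + x) + W.a₄ - W.a₁ * y =
            polyX W x y + (x' - x) * (x' + 2 * x + W.a₂) := by
          simp only [polyX]; ring
        have hsm : v ((x' - x) * (x' + 2 * x + W.a₂)) < 1 := by
          rw [mul_comm]
          apply keyAny_mul_lt_one v _ hxx
          exact v.map_add_le (v.map_add_le hx' (keyAny_mul_le_one v (keyAny_val_two_le v) hx)) h₂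
        rw [e, v.map_add_eq_of_lt_left (by rw [hFx]; exact hsm), hFx]
      have hprod : v (y' - y) * v (y' + y + W.a₁ * x' + W.a₃) = v (x' - x) := by
        rw [← map_mul, ← mul_one (v (x' - x)), ← hQ, ← map_mul]
        congr 1
        have e := (Affine.equation_iff x y).1 h.1
        have e' := (Affine.equation_iff x' y').1 h'.1
        linear_combination e' - e
      by_contra hcon
      rw [not_lt] at hcon
      have hD' : y' + y + W.a₁ * x' + W.a₃ =
          (y' - W.toAffine.negY x y) + W.a₁ * (x' - x) := by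
        simp only [Affine.negY]; ring
      have hle : v (y' + y + W.a₁ * x' + W.a₃) ≤ v (x' - x) := by
        rw [hD']
        apply v.map_add_le hcon
        rw [map_mul]
        calc v W.a₁ * v (x' - x) ≤ 1 * v (x' - x) := mul_le_mul' h₁ le_rfl
          _ = v (x' - x) := one_mul _
      have : v (x' - x) < v (x' - x) := by
        calc v (x' - x) = v (y' - y) * v (y' + y + W.a₁ * x' + W.a₃) := hprod.symm
          _ ≤ v (y' - y) * v (x' - x) := mul_le_mul' le_rfl hle
          _ < 1 * v (x' - x) := mul_lt_mul_of_pos_right hyy hd0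
          _ = v (x' - x) := one_mul _
      exact lt_irrefl _ this

end Fermat.Agent.S13
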