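import Mathlib
import Fermat.Agent.S13.Local.KeyAny
import Fermat.Agent.S13.Local.Branch

/-!
# S13, piece P4 (pure valuation part)

For `W : y² + a₁xy = x³ + a₂x² + a₄x` with integral coefficients, `v b₂ = 1`, `v a₄ < 1`
(node at the origin modulo the maximal ideal, any residue characteristic):
a point with `v x = 1` has nonsingular reduction (`nonsing_of_unit_x`).
-/

set_option autoImplicit false
set_option linter.unusedSectionVars false
set_option linter.unusedVariables false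

namespace Fermat.Agent.S13

open WeierstrassCurve WeierstrassCurve.Affine

variable {K : Type*} [Field K] [DecidableEq K]
variable {Γ₀ : Type*} [LinearOrderedCommGroupWithZero Γ₀] (v : Valuation K Γ₀)

lemma polyY_sq {W : WeierstrassCurve K} (ha₃ : W.a₃ = 0) (ha₆ : W.a₆ = 0) {x y : K}
    (h : W.toAffine.Equation x y) :
    polyY W x y ^ 2 = x * (4 * x ^ 2 + W.b₂ * x + 4 * W.a₄) := by
  have e := (Affine.equation_iff x y).1 h
  rw [ha₃, ha₆] at e
  simp only [polyY, ha₃, WeierstrassCurve.b₂]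
  linear_combination 4 * e

lemma polyX_polyY_comb {W : WeierstrassCurve K} (ha₃ : W.a₃ = 0) (x y : K) :
    2 * polyX W x y + W.a₁ * polyY W x y = 6 * x ^ 2 + W.b₂ * x + 2 * W.a₄ := by
  simp only [polyX, polyY, ha₃, WeierstrassCurve.b₂]
  ring

lemma polyX_val_le {W : WeierstrassCurve K} (h₁ : v W.a₁ ≤ 1) (h₂ : v W.a₂ ≤ 1)
    (h₄ : v W.a₄ ≤ 1) {x y : K} (hx : v x ≤ 1) (hy : v y ≤ 1) : v (polyX W x y) ≤ 1 := by
  simp only [polyX]
  refine v.map_sub_le (v.map_add_le (v.map_add_le ?_ ?_) h₄) (keyAny_mul_le_one v h₁ hy)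
  · exact keyAny_mul_le_one v (keyAny_val_three_le v) (keyAny_pow_le_one v hx 2)
  · exact keyAny_mul_le_one v (keyAny_mul_le_one v (keyAny_val_two_le v) h₂) hx

/-- A point with unit `x`-coordinate has nonsingular reduction. -/
theorem nonsing_of_unit_x {W : WeierstrassCurve K} (ha₃ : W.a₃ = 0) (ha₆ : W.a₆ = 0)
    (h₁ : v W.a₁ ≤ 1) (h₂ : v W.a₂ ≤ 1) (hb₂ : v W.b₂ = 1) (ha₄ : v W.a₄ < 1)
    {x y : K} (h : W.toAffine.Equation x y) (hx : v x = 1) (hy : v y ≤ 1) :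
    v (polyY W x y) = 1 ∨ v (polyX W x y) = 1 := by
  have h₃ : v W.a₃ ≤ 1 := by rw [ha₃, map_zero]; exact zero_le_one
  have hYle := polyY_val_le v h₁ h₃ hx.le hy
  have hXle := polyX_val_le v h₁ h₂ ha₄.le hx.le hy
  by_contra hcon
  rw [not_or] at hcon
  have hY : v (polyY W x y) < 1 := lt_of_le_of_ne hYle hcon.1
  have hX : v (polyX W x y) < 1 := lt_of_le_of_ne hXle hcon.2
  have h2le := keyAny_val_two_le v
  -- `4x² + b₂x + 4a₄ ∈ 𝔪`
  have hA : v (4 * x ^ 2 + W.b₂ * x + 4 * W.a₄) < 1 := by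
    have e := congrArg v (polyY_sq ha₃ ha₆ h)
    rw [map_pow, map_mul, hx, one_mul] at e
    rw [← e]
    exact pow_lt_one₀ zero_le hY (by norm_num)
  -- `6x² + b₂x + 2a₄ ∈ 𝔪`
  have hB : v (6 * x ^ 2 + W.b₂ * x + 2 * W.a₄) < 1 := by
    rw [← polyX_polyY_comb ha₃]
    exact v.map_add_lt (keyAny_mul_lt_one v h2le hX) (keyAny_mul_lt_one v h₁ hY)
  have h2a : v (2 * W.a₄) < 1 := keyAny_mul_lt_one v h2le ha₄
  -- `2x² ∈ 𝔪`, hence `2 ∈ 𝔪`
  have h2x : v (2 * x ^ 2) < 1 := by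
    have e : 2 * x ^ 2 = (6 * x ^ 2 + W.b₂ * x + 2 * W.a₄) -
        (4 * x ^ 2 + W.b₂ * x + 4 * W.a₄) + 2 * W.a₄ := by ring
    rw [e]
    exact v.map_add_lt (v.map_sub_lt hB hA) h2a
  have h2 : v (2 : K) < 1 := by
    rwa [map_mul, map_pow, hx, one_pow, mul_one] at h2x
  have h4 : v (4 : K) < 1 := by
    have : (4 : K) = 2 * 2 := by norm_num
    rw [this]
    exact keyAny_mul_lt_one v h2le h2
  -- `b₂ x ∈ 𝔪`
  have hbx : v (W.b₂ * x) < 1 := by
    have e : W.b₂ * x = (4 * x ^ 2 + W.b₂ * x + 4 * W.a₄) - 4 * x ^ 2 - 4 * W.a₄ := by ring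
    rw [e]
    refine v.map_sub_lt (v.map_sub_lt hA ?_) ?_
    · rw [map_mul, map_pow, hx, one_pow, mul_one]; exact h4
    · exact keyAny_mul_lt_one v (le_of_lt h4) ha₄
  rw [map_mul, hb₂, hx, one_mul] at hbx
  exact lt_irrefl _ hbx

/-- For a point with `v x = 1`, the double has `v x₂ · v(polyY)² = 1`. -/
lemma dbl_num_val {W : WeierstrassCurve K} (ha₄ : v W.a₄ < 1) {x : K} (hx : v x = 1) :
    v (x ^ 2 - W.a₄) = 1 := by
  rw [v.map_sub_eq_of_lt_left (by rw [map_pow, hx, one_pow]; exact ha₄), map_pow, hx, one_pow]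

end Fermat.Agent.S13
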