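/-
S13, tropical step in any residue characteristic (helper99, on helper13's request):
pure valuation case lemmas.  Adaptation of `Fermat/Agent/S05/TropCases.lean`, `TropNP.lean`,
`TropDup.lean` (helper5, helper63, helper99) to the normalisation
  `(Xs + Xd) (X₁ - X₂)² = 2 (X₁ + X₂)(X₁ X₂ + κ) + β X₁ X₂`,   `Xs Xd (X₁ - X₂)² = (X₁ X₂ - κ)²`
with `v 2 ≤ 1`, `v β = 1`, `v κ < 1` (for the curve `y² + a₁xy = x³ + a₂x² + a₄x`: `β = b₂`, `κ = a₄`).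
Regions for `X`: `E₀ = {1 ≤ v X}`, interior `= {v κ < v X < 1}`, `T₀ = {v X ≤ v κ}`.
-/
import Fermat.Agent.S05.TropNP
import Fermat.Agent.S05.TropCases

set_option autoImplicit false
set_option linter.unusedVariables false

namespace Fermat.Agent.S13

open Fermat.Agent.S05

section TropTwoVal

variable {K : Type*} [Field K] {Γ₀ : Type*} [LinearOrderedCommGroupWithZero Γ₀]
  (v : Valuation K Γ₀) {κ β X₁ X₂ Xs Xd X X₃ η : K}

lemma trop2_v_four_le (h2 : v (2 : K) ≤ 1) : v (4 : K) ≤ 1 := by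
  have : (4 : K) = 2 * 2 := by norm_num
  rw [this, map_mul]
  calc v 2 * v 2 ≤ 1 * 1 := mul_le_mul' h2 h2
    _ = 1 := one_mul 1

/-- bound for the numerator of the sum -/
lemma trop2_num_le (h2 : v (2 : K) ≤ 1) (hβ : v β = 1) {M : Γ₀}
    (hA : v (X₁ + X₂) * v (X₁ * X₂ + κ) ≤ M) (hB : v (X₁ * X₂) ≤ M) :
    v (2 * ((X₁ + X₂) * (X₁ * X₂ + κ)) + β * (X₁ * X₂)) ≤ M := by
  refine v.map_add_le ?_ ?_
  · rw [map_mul, map_mul]
    calc v 2 * (v (X₁ + X₂) * v (X₁ * X₂ + κ)) ≤ 1 * M := mul_le_mul' h2 hA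
      _ = M := one_mul M
  · rw [map_mul, hβ, one_mul]; exact hB

theorem trop2_E0_int (h2 : v (2 : K) ≤ 1) (hβ : v β = 1) (hκ : v κ < 1) (hκ0 : κ ≠ 0)
    (hne : X₁ ≠ X₂)
    (hS : (Xs + Xd) * (X₁ - X₂) ^ 2 = 2 * ((X₁ + X₂) * (X₁ * X₂ + κ)) + β * (X₁ * X₂))
    (hP : Xs * Xd * (X₁ - X₂) ^ 2 = (X₁ * X₂ - κ) ^ 2)
    (h₁ : 1 ≤ v X₁) (h₂l : v κ < v X₂) (h₂u : v X₂ < 1) :
    v Xs = v X₂ ∧ v Xd = v X₂ := by
  have ha0 : 0 < v X₁ := lt_of_lt_of_le zero_lt_one h₁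
  have hb0 : 0 < v X₂ := lt_of_le_of_lt zero_le h₂l
  have hlt : v X₂ < v X₁ := lt_of_lt_of_le h₂u h₁
  have hδ : v (X₁ - X₂) = v X₁ := v.map_sub_eq_of_lt_left hlt
  have hprod : v (X₁ * X₂) = v X₁ * v X₂ := v.map_mul _ _
  have hlt2 : v κ < v (X₁ * X₂) := by
    rw [hprod]
    calc v κ < v X₂ := h₂l
      _ = 1 * v X₂ := (one_mul _).symm
      _ ≤ v X₁ * v X₂ := mul_le_mul' h₁ le_rfl
  have hnum : v (X₁ * X₂ - κ) = v X₁ * v X₂ := by
    rw [v.map_sub_eq_of_lt_left hlt2, hprod]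
  have hPi : v Xs * v Xd = v X₂ ^ 2 := by
    have : v (Xs * Xd * (X₁ - X₂) ^ 2) = v ((X₁ * X₂ - κ) ^ 2) := by rw [hP]
    rw [v.map_mul, v.map_mul, v.map_pow, v.map_pow, hδ, hnum, mul_pow] at this
    have h3 : v X₁ ^ 2 ≠ 0 := pow_ne_zero 2 ha0.ne'
    exact mul_right_cancel₀ h3 (this.trans (mul_comm _ _))
  have hSle : v (Xs + Xd) ≤ v X₂ := by
    have : v ((Xs + Xd) * (X₁ - X₂) ^ 2) =
        v (2 * ((X₁ + X₂) * (X₁ * X₂ + κ)) + β * (X₁ * X₂)) := by rw [hS]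
    rw [v.map_mul, v.map_pow, hδ] at this
    have hA : v (X₁ + X₂) * v (X₁ * X₂ + κ) ≤ v X₁ ^ 2 * v X₂ := by
      have hA1 : v (X₁ + X₂) ≤ v X₁ := by
        rw [v.map_add_eq_of_lt_left hlt]
      have hA2 : v (X₁ * X₂ + κ) ≤ v X₁ * v X₂ := by
        rw [v.map_add_eq_of_lt_left hlt2, hprod]
      calc v (X₁ + X₂) * v (X₁ * X₂ + κ) ≤ v X₁ * (v X₁ * v X₂) := mul_le_mul' hA1 hA2
        _ = v X₁ ^ 2 * v X₂ := by rw [pow_two, mul_assoc]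
    have hB : v (X₁ * X₂) ≤ v X₁ ^ 2 * v X₂ := by
      rw [hprod]
      calc v X₁ * v X₂ = 1 * v X₁ * v X₂ := by rw [one_mul]
        _ ≤ v X₁ * v X₁ * v X₂ := mul_le_mul' (mul_le_mul' h₁ le_rfl) le_rfl
        _ = v X₁ ^ 2 * v X₂ := by rw [pow_two]
    have hN := trop2_num_le v h2 hβ hA hB
    rw [← this] at hN
    have h3 : 0 < v X₁ ^ 2 := pow_pos ha0 2
    rw [mul_comm] at hN
    exact le_of_mul_le_mul_left hN h3
  have hnp : v (Xs + Xd) ^ 2 ≤ v Xs * v Xd := by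
    rw [hPi]; exact pow_le_pow_left₀ zero_le hSle 2
  have heq := trop_np_eq v hnp
  rw [← heq, ← pow_two] at hPi
  have h1 : v Xs = v X₂ := (pow_left_inj₀ zero_le zero_le (by norm_num)).1 hPi
  exact ⟨h1, heq ▸ h1⟩

theorem trop2_E0_T0 (h2 : v (2 : K) ≤ 1) (hβ : v β = 1) (hκ : v κ < 1) (hκ0 : κ ≠ 0)
    (hne : X₁ ≠ X₂)
    (hS : (Xs + Xd) * (X₁ - X₂) ^ 2 = 2 * ((X₁ + X₂) * (X₁ * X₂ + κ)) + β * (X₁ * X₂))
    (hP : Xs * Xd * (X₁ - X₂) ^ 2 = (X₁ * X₂ - κ) ^ 2)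
    (h₁ : 1 ≤ v X₁) (h₂ : v X₂ ≤ v κ) :
    v Xs ≤ v κ ∧ v Xd ≤ v κ := by
  have ha0 : 0 < v X₁ := lt_of_lt_of_le zero_lt_one h₁
  have hlt : v X₂ < v X₁ := lt_of_le_of_lt h₂ (lt_of_lt_of_le hκ h₁)
  have hδ : v (X₁ - X₂) = v X₁ := v.map_sub_eq_of_lt_left hlt
  have hprod : v (X₁ * X₂) = v X₁ * v X₂ := v.map_mul _ _
  have hprod_le : v (X₁ * X₂) ≤ v X₁ * v κ := by rw [hprod]; exact mul_le_mul' le_rfl h₂
  have hee_le : v κ ≤ v X₁ * v κ := by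
    calc v κ = 1 * v κ := (one_mul _).symm
      _ ≤ v X₁ * v κ := mul_le_mul' h₁ le_rfl
  have hnum : v (X₁ * X₂ - κ) ≤ v X₁ * v κ := v.map_sub_le hprod_le hee_le
  have hnum' : v (X₁ * X₂ + κ) ≤ v X₁ * v κ := v.map_add_le hprod_le hee_le
  have h3 : 0 < v X₁ ^ 2 := pow_pos ha0 2
  have hPi : v Xs * v Xd ≤ v κ ^ 2 := by
    have : v (Xs * Xd * (X₁ - X₂) ^ 2) = v ((X₁ * X₂ - κ) ^ 2) := by rw [hP]
    rw [v.map_mul, v.map_mul, v.map_pow, v.map_pow, hδ] at this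
    have h4 : v Xs * v Xd * v X₁ ^ 2 ≤ v κ ^ 2 * v X₁ ^ 2 := by
      rw [this, ← mul_pow, mul_comm (v κ)]
      exact pow_le_pow_left₀ zero_le hnum 2
    exact le_of_mul_le_mul_right h4 h3
  have hSle : v (Xs + Xd) ≤ v κ := by
    have : v ((Xs + Xd) * (X₁ - X₂) ^ 2) =
        v (2 * ((X₁ + X₂) * (X₁ * X₂ + κ)) + β * (X₁ * X₂)) := by rw [hS]
    rw [v.map_mul, v.map_pow, hδ] at this
    have hA : v (X₁ + X₂) * v (X₁ * X₂ + κ) ≤ v X₁ ^ 2 * v κ := by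
      have hA1 : v (X₁ + X₂) ≤ v X₁ := by
        rw [v.map_add_eq_of_lt_left hlt]
      calc v (X₁ + X₂) * v (X₁ * X₂ + κ) ≤ v X₁ * (v X₁ * v κ) := mul_le_mul' hA1 hnum'
        _ = v X₁ ^ 2 * v κ := by rw [pow_two, mul_assoc]
    have hB : v (X₁ * X₂) ≤ v X₁ ^ 2 * v κ := by
      calc v (X₁ * X₂) ≤ v X₁ * v κ := hprod_le
        _ = 1 * v X₁ * v κ := by rw [one_mul]
        _ ≤ v X₁ * v X₁ * v κ := mul_le_mul' (mul_le_mul' h₁ le_rfl) le_rfl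
        _ = v X₁ ^ 2 * v κ := by rw [pow_two]
    have hN := trop2_num_le v h2 hβ hA hB
    rw [← this] at hN
    rw [mul_comm] at hN
    exact le_of_mul_le_mul_left hN h3
  exact trop_np_le v hPi hSle

theorem trop2_T0_int (h2 : v (2 : K) ≤ 1) (hβ : v β = 1) (hκ : v κ < 1) (hκ0 : κ ≠ 0)
    (hne : X₁ ≠ X₂)
    (hS : (Xs + Xd) * (X₁ - X₂) ^ 2 = 2 * ((X₁ + X₂) * (X₁ * X₂ + κ)) + β * (X₁ * X₂))
    (hP : Xs * Xd * (X₁ - X₂) ^ 2 = (X₁ * X₂ - κ) ^ 2)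
    (h₁ : v X₁ ≤ v κ) (h₂l : v κ < v X₂) (h₂u : v X₂ < 1) :
    v Xs * v X₂ = v κ ∧ v Xd * v X₂ = v κ := by
  have hε0 : 0 < v κ := by rw [zero_lt_iff, v.ne_zero_iff]; exact hκ0
  have hb0 : 0 < v X₂ := lt_trans hε0 h₂l
  have hlt : v X₁ < v X₂ := lt_of_le_of_lt h₁ h₂l
  have hδ : v (X₁ - X₂) = v X₂ := v.map_sub_eq_of_lt_right hlt
  have hprod : v (X₁ * X₂) = v X₁ * v X₂ := v.map_mul _ _
  have hprod_lt : v (X₁ * X₂) < v κ := by
    rw [hprod]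
    calc v X₁ * v X₂ ≤ v κ * v X₂ := mul_le_mul' h₁ le_rfl
      _ < v κ * 1 := mul_lt_mul_of_pos_left h₂u hε0
      _ = v κ := mul_one _
  have hnum : v (X₁ * X₂ - κ) = v κ := by
    rw [v.map_sub_eq_of_lt_right hprod_lt]
  have hnum' : v (X₁ * X₂ + κ) = v κ := by
    rw [v.map_add_eq_of_lt_right hprod_lt]
  have h3 : 0 < v X₂ ^ 2 := pow_pos hb0 2
  have hPi : v Xs * v Xd * v X₂ ^ 2 = v κ ^ 2 := by
    have : v (Xs * Xd * (X₁ - X₂) ^ 2) = v ((X₁ * X₂ - κ) ^ 2) := by rw [hP]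
    rw [v.map_mul, v.map_mul, v.map_pow, v.map_pow, hδ, hnum] at this
    exact this
  have hSle : v (Xs + Xd) * v X₂ ≤ v κ := by
    have : v ((Xs + Xd) * (X₁ - X₂) ^ 2) =
        v (2 * ((X₁ + X₂) * (X₁ * X₂ + κ)) + β * (X₁ * X₂)) := by rw [hS]
    rw [v.map_mul, v.map_pow, hδ] at this
    have hA : v (X₁ + X₂) * v (X₁ * X₂ + κ) ≤ v κ * v X₂ := by
      rw [hnum', v.map_add_eq_of_lt_right hlt, mul_comm]
    have hB : v (X₁ * X₂) ≤ v κ * v X₂ := by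
      rw [hprod]; exact mul_le_mul' h₁ le_rfl
    have hN := trop2_num_le v h2 hβ hA hB
    rw [← this] at hN
    have hN' : v (Xs + Xd) * v X₂ * v X₂ ≤ v κ * v X₂ := by
      rw [mul_assoc, ← pow_two]; exact hN
    exact le_of_mul_le_mul_right hN' hb0
  have hnp : v (Xs + Xd) ^ 2 ≤ v Xs * v Xd := by
    have h5 : v (Xs + Xd) ^ 2 * v X₂ ^ 2 ≤ v Xs * v Xd * v X₂ ^ 2 := by
      rw [hPi, ← mul_pow]
      exact pow_le_pow_left₀ zero_le hSle 2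
    exact le_of_mul_le_mul_right h5 h3
  have heq := trop_np_eq v hnp
  have h6 : (v Xs * v X₂) ^ 2 = v κ ^ 2 := by
    rw [← hPi, ← heq, mul_pow, pow_two (v Xs)]
  have h1 : v Xs * v X₂ = v κ := (pow_left_inj₀ zero_le zero_le (by norm_num)).1 h6
  exact ⟨h1, heq ▸ h1⟩

theorem trop2_T0_T0 (h2 : v (2 : K) ≤ 1) (hβ : v β = 1) (hκ : v κ < 1) (hκ0 : κ ≠ 0)
    (hne : X₁ ≠ X₂)
    (hS : (Xs + Xd) * (X₁ - X₂) ^ 2 = 2 * ((X₁ + X₂) * (X₁ * X₂ + κ)) + β * (X₁ * X₂))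
    (hP : Xs * Xd * (X₁ - X₂) ^ 2 = (X₁ * X₂ - κ) ^ 2)
    (h₁ : v X₁ ≤ v κ) (h₂ : v X₂ ≤ v κ) :
    1 ≤ v Xs ∧ 1 ≤ v Xd := by
  have hε0 : 0 < v κ := by rw [zero_lt_iff, v.ne_zero_iff]; exact hκ0
  have hδle : v (X₁ - X₂) ≤ v κ := v.map_sub_le h₁ h₂
  have hδ0 : 0 < v (X₁ - X₂) := by
    rw [zero_lt_iff, v.ne_zero_iff]; exact sub_ne_zero.2 hne
  have hprod : v (X₁ * X₂) = v X₁ * v X₂ := v.map_mul _ _
  have hprod_le : v (X₁ * X₂) ≤ v κ ^ 2 := by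
    rw [hprod, pow_two]; exact mul_le_mul' h₁ h₂
  have hsq_lt : v κ ^ 2 < v κ := by
    calc v κ ^ 2 = v κ * v κ := pow_two _
      _ < v κ * 1 := mul_lt_mul_of_pos_left hκ hε0
      _ = v κ := mul_one _
  have hprod_lt : v (X₁ * X₂) < v κ := lt_of_le_of_lt hprod_le hsq_lt
  have hnum : v (X₁ * X₂ - κ) = v κ := by
    rw [v.map_sub_eq_of_lt_right hprod_lt]
  have hnum' : v (X₁ * X₂ + κ) = v κ := by
    rw [v.map_add_eq_of_lt_right hprod_lt]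
  have h3 : 0 < v (X₁ - X₂) ^ 2 := pow_pos hδ0 2
  have hPi : v Xs * v Xd * v (X₁ - X₂) ^ 2 = v κ ^ 2 := by
    have : v (Xs * Xd * (X₁ - X₂) ^ 2) = v ((X₁ * X₂ - κ) ^ 2) := by rw [hP]
    rw [v.map_mul, v.map_mul, v.map_pow, v.map_pow, hnum] at this
    exact this
  have hPi1 : 1 ≤ v Xs * v Xd := by
    have h5 : 1 * v (X₁ - X₂) ^ 2 ≤ v Xs * v Xd * v (X₁ - X₂) ^ 2 := by
      rw [hPi, one_mul]
      exact pow_le_pow_left₀ zero_le hδle 2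
    exact le_of_mul_le_mul_right h5 h3
  have hSle : v (Xs + Xd) ≤ v Xs * v Xd := by
    have : v ((Xs + Xd) * (X₁ - X₂) ^ 2) =
        v (2 * ((X₁ + X₂) * (X₁ * X₂ + κ)) + β * (X₁ * X₂)) := by rw [hS]
    rw [v.map_mul, v.map_pow] at this
    have hA : v (X₁ + X₂) * v (X₁ * X₂ + κ) ≤ v κ ^ 2 := by
      rw [hnum', pow_two]
      exact mul_le_mul' (v.map_add_le h₁ h₂) le_rfl
    have hN := trop2_num_le v h2 hβ hA hprod_le
    rw [← this, ← hPi] at hN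
    exact le_of_mul_le_mul_right hN h3
  exact trop_np_ge v hPi1 hSle

/-- Both points in the interior region: the cancellation case. -/
theorem trop2_int_int (h2 : v (2 : K) ≤ 1) (hβ : v β = 1) (hκ0 : κ ≠ 0) (hne : X₁ ≠ X₂)
    (hS : (Xs + Xd) * (X₁ - X₂) ^ 2 = 2 * ((X₁ + X₂) * (X₁ * X₂ + κ)) + β * (X₁ * X₂))
    (hP : Xs * Xd * (X₁ - X₂) ^ 2 = (X₁ * X₂ - κ) ^ 2)
    (h₁l : v κ < v X₁) (h₁u : v X₁ < 1) (h₂l : v κ < v X₂) (h₂u : v X₂ < 1) :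
    ∃ A B : Γ₀, ((v Xs = A ∧ v Xd = B) ∨ (v Xs = B ∧ v Xd = A)) ∧
      A * v (X₁ - X₂) ^ 2 = v X₁ * v X₂ ∧
      B * (v X₁ * v X₂) = v (X₁ * X₂ - κ) ^ 2 := by
  set a := v X₁ with ha
  set b := v X₂ with hb
  set ε := v κ with hε
  have hε0 : 0 < ε := by rw [hε]; exact zero_lt_iff.mpr ((Valuation.ne_zero_iff v).mpr hκ0)
  have ha0 : 0 < a := lt_trans hε0 h₁l
  have hb0 : 0 < b := lt_trans hε0 h₂l
  have hab0 : 0 < a * b := mul_pos ha0 hb0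
  have hD0 : X₁ - X₂ ≠ 0 := sub_ne_zero.mpr hne
  set δ := v (X₁ - X₂) with hδ
  have hδ0 : 0 < δ := by rw [hδ]; exact zero_lt_iff.mpr ((Valuation.ne_zero_iff v).mpr hD0)
  have hδle : δ ≤ max a b := Valuation.map_sub v X₁ X₂
  have hMlt : max a b < 1 := max_lt h₁u h₂u
  have hsum : v (X₁ + X₂) ≤ max a b := Valuation.map_add v X₁ X₂
  have key : max a b * max (a * b) ε < a * b := by
    rcases le_total a b with hle | hle
    · rw [max_eq_right hle]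
      rcases le_total (a * b) ε with h' | h'
      · rw [max_eq_right h', mul_comm]
        exact mul_lt_mul_of_pos_right h₁l hb0
      · rw [max_eq_left h']
        calc b * (a * b) < 1 * (a * b) := mul_lt_mul_of_pos_right h₂u hab0
          _ = a * b := one_mul _
    · rw [max_eq_left hle]
      rcases le_total (a * b) ε with h' | h'
      · rw [max_eq_right h']
        calc a * ε < a * b := by
              rw [mul_comm a ε, mul_comm a b]; exact mul_lt_mul_of_pos_right h₂l ha0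
          _ = a * b := rfl
      · rw [max_eq_left h']
        calc a * (a * b) < 1 * (a * b) := mul_lt_mul_of_pos_right h₁u hab0
          _ = a * b := one_mul _
  have hπle : v (X₁ * X₂ - κ) ≤ max (a * b) ε := by
    refine le_trans (Valuation.map_sub v _ _) ?_
    rw [map_mul]
  have hπle' : v (X₁ * X₂ + κ) ≤ max (a * b) ε := by
    refine le_trans (Valuation.map_add v _ _) ?_
    rw [map_mul]
  -- Step 1: valuation of the numerator of the sum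
  have hN : v (2 * ((X₁ + X₂) * (X₁ * X₂ + κ)) + β * (X₁ * X₂)) = a * b := by
    have hmain : v (β * (X₁ * X₂)) = a * b := by
      rw [map_mul, map_mul, hβ, one_mul]
    have hR : v (2 * ((X₁ + X₂) * (X₁ * X₂ + κ))) < a * b := by
      rw [map_mul, map_mul]
      calc v 2 * (v (X₁ + X₂) * v (X₁ * X₂ + κ))
          ≤ 1 * (max a b * max (a * b) ε) := mul_le_mul' h2 (mul_le_mul' hsum hπle')
        _ = max a b * max (a * b) ε := one_mul _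
        _ < a * b := key
    rw [Valuation.map_add_eq_of_lt_right v (by rw [hmain]; exact hR), hmain]
  have hSv : v (Xs + Xd) * δ ^ 2 = a * b := by
    have := congrArg v hS
    rw [map_mul, map_pow, hN] at this
    exact this
  have hPv : v (Xs * Xd) * δ ^ 2 = v (X₁ * X₂ - κ) ^ 2 := by
    have := congrArg v hP
    rw [map_mul, map_pow, map_pow] at this
    exact this
  have hunb : v (Xs * Xd) < v (Xs + Xd) ^ 2 := by
    have hδ2 : 0 < δ ^ 2 := pow_pos hδ0 2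
    have hδ4 : 0 < δ ^ 2 * δ ^ 2 := mul_pos hδ2 hδ2
    have h1 : v (Xs * Xd) * (δ ^ 2 * δ ^ 2) < v (Xs + Xd) ^ 2 * (δ ^ 2 * δ ^ 2) := by
      have e2 : v (Xs + Xd) ^ 2 * (δ ^ 2 * δ ^ 2) = (a * b) ^ 2 := by
        rw [← hSv, mul_pow, sq (δ ^ 2)]
      have e3 : v (Xs * Xd) * (δ ^ 2 * δ ^ 2) = (v (X₁ * X₂ - κ) * δ) ^ 2 := by
        rw [← mul_assoc, hPv, mul_pow]
      rw [e2, e3]
      refine pow_lt_pow_left₀ ?_ zero_le two_ne_zero
      calc v (X₁ * X₂ - κ) * δ ≤ max (a * b) ε * max a b := mul_le_mul' hπle hδle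
        _ = max a b * max (a * b) ε := mul_comm _ _
        _ < a * b := key
    exact lt_of_mul_lt_mul_right h1 zero_le
  rcases np_unbalanced v hunb with ⟨h1, h2'⟩ | ⟨h1, h2'⟩
  · refine ⟨v (Xs + Xd), v Xd, Or.inl ⟨h1, rfl⟩, hSv, ?_⟩
    rw [← hSv, ← mul_assoc, h2', hPv]
  · refine ⟨v (Xs + Xd), v Xs, Or.inr ⟨rfl, h1⟩, hSv, ?_⟩
    rw [← hSv, ← mul_assoc, h2', hPv]

/-- Duplication of a point in the region of `T`: the double lies in `E₀`. -/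
theorem trop2_dup_T0 (h2 : v (2 : K) ≤ 1) (hβ : v β = 1) (hκ : v κ < 1) (hκ0 : κ ≠ 0)
    (hη : η ^ 2 = X * (4 * X ^ 2 + β * X + 4 * κ))
    (hD : X₃ * η ^ 2 = (X ^ 2 - κ) ^ 2) (hη0 : η ≠ 0)
    (hX : v X ≤ v κ) : 1 ≤ v X₃ := by
  set ε := v κ with hε
  have hε0 : 0 < ε := by rw [hε]; exact zero_lt_iff.mpr ((Valuation.ne_zero_iff v).mpr hκ0)
  have h4 := trop2_v_four_le v h2
  have hX2 : v (X ^ 2) < ε := by
    rw [map_pow, sq]
    calc v X * v X ≤ ε * v X := mul_le_mul' hX le_rfl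
      _ ≤ ε * ε := mul_le_mul' le_rfl hX
      _ < 1 * ε := mul_lt_mul_of_pos_right hκ hε0
      _ = ε := one_mul _
  have hnum : v (X ^ 2 - κ) = ε := by
    rw [Valuation.map_sub_eq_of_lt_right v hX2]
  have hfac : v (4 * X ^ 2 + β * X + 4 * κ) ≤ ε := by
    refine v.map_add_le (v.map_add_le ?_ ?_) ?_
    · rw [map_mul]
      calc v 4 * v (X ^ 2) ≤ 1 * ε := mul_le_mul' h4 hX2.le
        _ = ε := one_mul _
    · rw [map_mul, hβ, one_mul]; exact hX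
    · rw [map_mul]
      calc v 4 * v κ ≤ 1 * ε := mul_le_mul' h4 le_rfl
        _ = ε := one_mul _
  have hηv : v (η ^ 2) ≤ ε ^ 2 := by
    rw [hη, map_mul]
    calc v X * v (4 * X ^ 2 + β * X + 4 * κ) ≤ ε * ε := mul_le_mul' hX hfac
      _ = ε ^ 2 := (sq ε).symm
  have hη2pos : 0 < v (η ^ 2) :=
    zero_lt_iff.mpr ((Valuation.ne_zero_iff v).mpr (pow_ne_zero 2 hη0))
  have hDv : v X₃ * v (η ^ 2) = ε ^ 2 := by
    have := congrArg v hD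
    rw [map_mul, map_pow (v) (X ^ 2 - κ), hnum] at this
    exact this
  by_contra hlt
  rw [not_le] at hlt
  have : v X₃ * v (η ^ 2) < ε ^ 2 :=
    calc v X₃ * v (η ^ 2) < 1 * v (η ^ 2) := mul_lt_mul_of_pos_right hlt hη2pos
      _ = v (η ^ 2) := one_mul _
      _ ≤ ε ^ 2 := hηv
  exact absurd hDv (ne_of_lt this)

/-- the second factor of `η²` at an interior point -/
lemma trop2_v_factor (h2 : v (2 : K) ≤ 1) (hβ : v β = 1) (hκ0 : κ ≠ 0)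
    (hXl : v κ < v X) (hXu : v X < 1) : v (4 * X ^ 2 + β * X + 4 * κ) = v X := by
  have hε0 : 0 < v κ := zero_lt_iff.mpr ((Valuation.ne_zero_iff v).mpr hκ0)
  have ha0 : 0 < v X := lt_trans hε0 hXl
  have h4 := trop2_v_four_le v h2
  have hmain : v (β * X) = v X := by rw [map_mul, hβ, one_mul]
  have h1 : v (4 * X ^ 2) < v X := by
    rw [map_mul, map_pow, sq]
    calc v 4 * (v X * v X) ≤ 1 * (v X * v X) := mul_le_mul' h4 le_rfl
      _ = v X * v X := one_mul _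
      _ < 1 * v X := mul_lt_mul_of_pos_right hXu ha0
      _ = v X := one_mul _
  have h3 : v (4 * κ) < v X := by
    rw [map_mul]
    calc v 4 * v κ ≤ 1 * v κ := mul_le_mul' h4 le_rfl
      _ = v κ := one_mul _
      _ < v X := hXl
  have e1 : v (4 * X ^ 2 + β * X) = v X := by
    rw [Valuation.map_add_eq_of_lt_right v (by rw [hmain]; exact h1), hmain]
  rw [Valuation.map_add_eq_of_lt_left v (by rw [e1]; exact h3), e1]

/-- Duplication of a point in the interior region. -/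
theorem trop2_dup_int (h2 : v (2 : K) ≤ 1) (hβ : v β = 1) (hκ : v κ < 1) (hκ0 : κ ≠ 0)
    (hη : η ^ 2 = X * (4 * X ^ 2 + β * X + 4 * κ))
    (hD : X₃ * η ^ 2 = (X ^ 2 - κ) ^ 2) (hη0 : η ≠ 0)
    (hXl : v κ < v X) (hXu : v X < 1) :
    (v κ < v X ^ 2 → v X₃ = v X ^ 2) ∧
    (v X ^ 2 < v κ → v X₃ * v X ^ 2 = v κ ^ 2) ∧
    (v X ^ 2 = v κ → v X₃ ≤ v κ) := by
  have hfac := trop2_v_factor v h2 hβ hκ0 hXl hXu
  set ε := v κ with hε
  set a := v X with ha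
  have hε0 : 0 < ε := by rw [hε]; exact zero_lt_iff.mpr ((Valuation.ne_zero_iff v).mpr hκ0)
  have ha0 : 0 < a := lt_trans hε0 hXl
  have ha2 : 0 < a ^ 2 := pow_pos ha0 2
  have hηv : v (η ^ 2) = a ^ 2 := by
    rw [hη, map_mul, hfac, sq]
  have hDv : v X₃ * a ^ 2 = v (X ^ 2 - κ) ^ 2 := by
    have := congrArg v hD
    rw [map_mul, map_pow (v) (X ^ 2 - κ), hηv] at this
    exact this
  refine ⟨fun h => ?_, fun h => ?_, fun h => ?_⟩
  · have hnum : v (X ^ 2 - κ) = a ^ 2 := by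
      rw [Valuation.map_sub_eq_of_lt_left v (by rw [map_pow]; exact h), map_pow]
    rw [hnum] at hDv
    have h3 : v X₃ * a ^ 2 = a ^ 2 * a ^ 2 := by rw [hDv, sq (a ^ 2)]
    exact mul_right_cancel₀ (ne_of_gt ha2) h3
  · have hnum : v (X ^ 2 - κ) = ε := by
      rw [Valuation.map_sub_eq_of_lt_right v (by rw [map_pow]; exact h)]
    rw [hnum] at hDv
    exact hDv
  · have hnum : v (X ^ 2 - κ) ≤ ε := by
      refine le_trans (Valuation.map_sub v _ _) (max_le ?_ le_rfl)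
      rw [map_pow]; exact le_of_eq h
    have h3 : v X₃ * a ^ 2 ≤ ε * a ^ 2 := by
      rw [hDv, sq, h]
      exact mul_le_mul' hnum hnum
    exact le_of_mul_le_mul_right h3 ha2

/-- If `η² = X (4X² + βX + 4κ)` vanishes and `v X < 1`, then `X` is in the region of `T`. -/
lemma trop2_eta_zero (h2 : v (2 : K) ≤ 1) (hβ : v β = 1) (hκ0 : κ ≠ 0)
    (hη : X * (4 * X ^ 2 + β * X + 4 * κ) = 0) (hXu : v X < 1) : v X ≤ v κ := by
  by_contra hcon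
  rw [not_le] at hcon
  have hfac := trop2_v_factor v h2 hβ hκ0 hcon hXu
  have hε0 : 0 < v κ := zero_lt_iff.mpr ((Valuation.ne_zero_iff v).mpr hκ0)
  have hX0 : X ≠ 0 := (Valuation.ne_zero_iff v).mp (ne_of_gt (lt_trans hε0 hcon))
  have h0 : 4 * X ^ 2 + β * X + 4 * κ = 0 := (mul_eq_zero.mp hη).resolve_left hX0
  rw [h0, map_zero] at hfac
  exact absurd hfac.symm (ne_of_gt (lt_trans hε0 hcon))

end TropTwoVal

end Fermat.Agent.S13
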