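/-
S13, tropical step in any residue characteristic (helper99, on helper13's request).

For `W : y² + a₁xy = x³ + a₂x² + a₄x` (`a₃ = a₆ = 0`) over a valued field with `v 2 ≤ 1`, `2 ≠ 0`,
`v b₂ = 1`, `0 < v a₄ < 1` (a node at `(0,0)`), an odd `p` and a `p`-torsion point `(x, y)` with
`v x < 1`:     `v a₄ < v x`   and   `v x ^ p ∈ v a₄ ^ (2ℤ)`.

Same route as `Fermat/Agent/S05/Tropical.lean` (helper5): `x`-only identities ⇒ quasi-parallelogram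
law for the clipped valuation `nu v 0 (v a₄)` ⇒ induction (`S05.tropical_torsion_of_qp`).
-/
import Fermat.Agent.S05.Coords
import Fermat.Agent.S05.TropDefs
import Fermat.Agent.S05.TropInd
import Fermat.Agent.S05.TropQP
import Fermat.Agent.S13.Local.TropTwoVal

set_option autoImplicit false

namespace Fermat.Agent.S13

open WeierstrassCurve WeierstrassCurve.Affine Fermat.Agent.S05

section TropTwoAlg

variable {K : Type*} [Field K] {W : WeierstrassCurve K}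

lemma trop2_b₄ (ha₃ : W.a₃ = 0) : W.b₄ = 2 * W.a₄ := by
  rw [WeierstrassCurve.b₄, ha₃]; ring

lemma trop2_b₆ (ha₃ : W.a₃ = 0) (ha₆ : W.a₆ = 0) : W.b₆ = 0 := by
  rw [WeierstrassCurve.b₆, ha₃, ha₆]; ring

lemma trop2_b₈ (ha₃ : W.a₃ = 0) (ha₆ : W.a₆ = 0) : W.b₈ = -W.a₄ ^ 2 := by
  rw [WeierstrassCurve.b₈, ha₃, ha₆]; ring

/-- The sum identity in the normalisation of `TropTwoVal`. -/
lemma trop2_sum_identity (ha₃ : W.a₃ = 0) (ha₆ : W.a₆ = 0) {x₁ x₂ xs xd : K}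
    (hS : (xs + xd) * (x₁ - x₂) ^ 2 =
      2 * x₁ * x₂ * (x₁ + x₂) + W.b₂ * x₁ * x₂ + W.b₄ * (x₁ + x₂) + W.b₆) :
    ((xs - 0) + (xd - 0)) * ((x₁ - 0) - (x₂ - 0)) ^ 2 =
      2 * (((x₁ - 0) + (x₂ - 0)) * ((x₁ - 0) * (x₂ - 0) + W.a₄)) +
        W.b₂ * ((x₁ - 0) * (x₂ - 0)) := by
  rw [trop2_b₄ ha₃, trop2_b₆ ha₃ ha₆] at hS
  linear_combination hS

/-- The product identity in the normalisation of `TropTwoVal`. -/
lemma trop2_prod_identity (ha₃ : W.a₃ = 0) (ha₆ : W.a₆ = 0) {x₁ x₂ xs xd : K}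
    (hP : xs * xd * (x₁ - x₂) ^ 2 =
      x₁ ^ 2 * x₂ ^ 2 - W.b₄ * x₁ * x₂ - W.b₆ * (x₁ + x₂) - W.b₈) :
    (xs - 0) * (xd - 0) * ((x₁ - 0) - (x₂ - 0)) ^ 2 = ((x₁ - 0) * (x₂ - 0) - W.a₄) ^ 2 := by
  rw [trop2_b₄ ha₃, trop2_b₆ ha₃ ha₆, trop2_b₈ ha₃ ha₆] at hP
  linear_combination hP

/-- `η² = X (4X² + b₂X + 4a₄)`. -/
lemma trop2_cub_eq (ha₃ : W.a₃ = 0) (ha₆ : W.a₆ = 0) (x : K) :
    cub W x = (x - 0) * (4 * (x - 0) ^ 2 + W.b₂ * (x - 0) + 4 * W.a₄) := by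
  rw [cub, trop2_b₄ ha₃, trop2_b₆ ha₃ ha₆]; ring

/-- The duplication identity. -/
lemma trop2_dup_identity (ha₃ : W.a₃ = 0) (ha₆ : W.a₆ = 0) {x x₃ η : K}
    (hD : x₃ * η ^ 2 = dupNum W x) :
    (x₃ - 0) * η ^ 2 = ((x - 0) ^ 2 - W.a₄) ^ 2 := by
  rw [dupNum, trop2_b₄ ha₃, trop2_b₆ ha₃ ha₆, trop2_b₈ ha₃ ha₆] at hD
  linear_combination hD

end TropTwoAlg

section TropTwoQP

variable {K : Type*} [Field K] [DecidableEq K] {Γ₀ : Type*} [LinearOrderedCommGroupWithZero Γ₀]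
  (v : Valuation K Γ₀) {W : WeierstrassCurve K}

/-- Quasi-parallelogram law, doubling case: `ν(2P) ∼ ν(P)²`. -/
theorem qp2_dup (ha₃ : W.a₃ = 0) (ha₆ : W.a₆ = 0) (h2 : v (2 : K) ≤ 1)
    (hb₂ : v W.b₂ = 1) (ha₄ : v W.a₄ < 1) (ha₄0 : W.a₄ ≠ 0)
    {x y : K} (h : W.toAffine.Nonsingular x y) (hx : v (x - 0) < 1) :
    Sim (v W.a₄) (nu v 0 (v W.a₄) (Point.some x y h + Point.some x y h))
      (nu v 0 (v W.a₄) (Point.some x y h) * nu v 0 (v W.a₄) (Point.some x y h)) := by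
  set ε := v W.a₄ with hε
  set X := x - 0 with hX
  have hε0 : 0 < ε := by rw [hε]; exact zero_lt_iff.mpr ((Valuation.ne_zero_iff v).mpr ha₄0)
  have hεne : ε ≠ 0 := ne_of_gt hε0
  have hηsq : eta W x y ^ 2 = X * (4 * X ^ 2 + W.b₂ * X + 4 * W.a₄) := by
    rw [eta_sq W h.1, trop2_cub_eq ha₃ ha₆]
  have hT0 : v X ≤ ε → nu v 0 ε (Point.some x y h) = ε := fun hle => nu_of_le v 0 ε ha₄.le h hle
  by_cases hη0 : eta W x y = 0
  · -- `2P = 0`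
    rw [add_self_of_eta_eq h hη0, nu_zero]
    have hprod : X * (4 * X ^ 2 + W.b₂ * X + 4 * W.a₄) = 0 := by
      rw [← hηsq, hη0]; ring
    have hXle : v X ≤ ε := trop2_eta_zero v h2 hb₂ ha₄0 hprod hx
    rw [hT0 hXle]
    exact sim_one_sq hεne
  · obtain ⟨x₃, y₃, h₃, hadd, hdup⟩ := add_self_of_eta_ne h hη0
    rw [hadd]
    have hD : (x₃ - 0) * eta W x y ^ 2 = (X ^ 2 - W.a₄) ^ 2 := trop2_dup_identity ha₃ ha₆ hdup
    rcases le_or_gt (v X) ε with hle | hgt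
    · have h1 : 1 ≤ v (x₃ - 0) := trop2_dup_T0 v h2 hb₂ ha₄ ha₄0 hηsq hD hη0 hle
      rw [nu_of_ge v 0 ε h₃ h1, hT0 hle]
      exact sim_one_sq hεne
    · have ha : nu v 0 ε (Point.some x y h) = v X := nu_of_mid v 0 ε h hgt.le hx.le
      rw [ha]
      obtain ⟨c1, c2, c3⟩ := trop2_dup_int v h2 hb₂ ha₄ ha₄0 hηsq hD hη0 hgt hx
      have ha0 : 0 < v X := lt_trans hε0 hgt
      have ha2 : 0 < v X ^ 2 := pow_pos ha0 2
      have ha21 : v X ^ 2 ≤ 1 := pow_le_one₀ zero_le hx.le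
      rcases lt_trichotomy ε (v X ^ 2) with hlt | heq | hlt
      · have e := c1 hlt
        rw [nu_of_mid v 0 ε h₃ (by rw [e]; exact hlt.le) (by rw [e]; exact ha21), e]
        exact Sim.of_eq (sq _)
      · have e := c3 heq.symm
        rw [nu_of_le v 0 ε ha₄.le h₃ e]
        exact Sim.of_eq (by rw [heq, sq])
      · have e := c2 hlt
        have hlo : ε ≤ v (x₃ - 0) := by
          by_contra hcon
          rw [not_le] at hcon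
          have : v (x₃ - 0) * v X ^ 2 < ε ^ 2 := by
            calc v (x₃ - 0) * v X ^ 2 ≤ ε * v X ^ 2 := mul_le_mul' hcon.le le_rfl
              _ = v X ^ 2 * ε := mul_comm _ _
              _ < ε * ε := mul_lt_mul_of_pos_right hlt hε0
              _ = ε ^ 2 := (sq ε).symm
          exact absurd e (ne_of_lt this)
        have hhi : v (x₃ - 0) ≤ 1 := by
          by_contra hcon
          rw [not_le] at hcon
          have : ε ^ 2 < v (x₃ - 0) * v X ^ 2 := by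
            calc ε ^ 2 < v X ^ 2 := pow_lt_pow_left₀ hgt zero_le two_ne_zero
              _ = 1 * v X ^ 2 := (one_mul _).symm
              _ < v (x₃ - 0) * v X ^ 2 := mul_lt_mul_of_pos_right hcon ha2
          exact absurd e (ne_of_gt this)
        rw [nu_of_mid v 0 ε h₃ hlo hhi]
        exact Sim.of_mul_eq_sq (by rw [← sq]; exact e)

/-- The quasi-parallelogram law, case `x₁ ≠ x₂`. -/
theorem qp2_of_X_ne (ha₃ : W.a₃ = 0) (ha₆ : W.a₆ = 0) (h20 : (2 : K) ≠ 0)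
    (h2 : v (2 : K) ≤ 1) (hb₂ : v W.b₂ = 1) (ha₄ : v W.a₄ < 1) (ha₄0 : W.a₄ ≠ 0)
    {x₁ y₁ x₂ y₂ : K} (h₁ : W.toAffine.Nonsingular x₁ y₁) (h₂ : W.toAffine.Nonsingular x₂ y₂)
    (hx : x₁ ≠ x₂) (hx₂ : v (x₂ - 0) < 1) :
    (Sim (v W.a₄) (nu v 0 (v W.a₄) (Point.some x₁ y₁ h₁ + Point.some x₂ y₂ h₂))
        (nu v 0 (v W.a₄) (Point.some x₁ y₁ h₁) * nu v 0 (v W.a₄) (Point.some x₂ y₂ h₂)) ∧
      Sim (v W.a₄) (nu v 0 (v W.a₄) (Point.some x₁ y₁ h₁ - Point.some x₂ y₂ h₂))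
        (nu v 0 (v W.a₄) (Point.some x₁ y₁ h₁) / nu v 0 (v W.a₄) (Point.some x₂ y₂ h₂))) ∨
    (Sim (v W.a₄) (nu v 0 (v W.a₄) (Point.some x₁ y₁ h₁ + Point.some x₂ y₂ h₂))
        (nu v 0 (v W.a₄) (Point.some x₁ y₁ h₁) / nu v 0 (v W.a₄) (Point.some x₂ y₂ h₂)) ∧
      Sim (v W.a₄) (nu v 0 (v W.a₄) (Point.some x₁ y₁ h₁ - Point.some x₂ y₂ h₂))
        (nu v 0 (v W.a₄) (Point.some x₁ y₁ h₁) * nu v 0 (v W.a₄) (Point.some x₂ y₂ h₂))) := by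
  obtain ⟨xs, ys, hs, xd, yd, hd, hadd, hsub, hS, hP⟩ := add_sub_X h20 h₁ h₂ hx
  have hS' := trop2_sum_identity ha₃ ha₆ hS
  have hP' := trop2_prod_identity ha₃ ha₆ hP
  rw [hadd, hsub]
  have hne : x₁ - 0 ≠ x₂ - 0 := fun h => hx (sub_left_injective h)
  set ε := v W.a₄ with hε
  have hε0 : 0 < ε := by rw [hε]; exact zero_lt_iff.mpr ((Valuation.ne_zero_iff v).mpr ha₄0)
  have hεne : ε ≠ 0 := ne_of_gt hε0
  -- symmetric versions of the identities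
  have hS'' : ((xs - 0) + (xd - 0)) * ((x₂ - 0) - (x₁ - 0)) ^ 2 =
      2 * (((x₂ - 0) + (x₁ - 0)) * ((x₂ - 0) * (x₁ - 0) + W.a₄)) +
        W.b₂ * ((x₂ - 0) * (x₁ - 0)) := by
    linear_combination hS'
  have hP'' : (xs - 0) * (xd - 0) * ((x₂ - 0) - (x₁ - 0)) ^ 2 =
      ((x₂ - 0) * (x₁ - 0) - W.a₄) ^ 2 := by
    linear_combination hP'
  rcases le_or_gt 1 (v (x₁ - 0)) with h1 | h1
  · -- P₁ ∈ E₀
    rw [nu_of_ge v 0 ε h₁ h1]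
    rcases lt_or_ge ε (v (x₂ - 0)) with h2l | h2l
    · -- (E₀, int)
      obtain ⟨e1, e2⟩ := trop2_E0_int v h2 hb₂ ha₄ ha₄0 hne hS' hP' h1 h2l hx₂
      have hb0 : v (x₂ - 0) ≠ 0 := ne_of_gt (lt_trans hε0 h2l)
      rw [nu_of_mid v 0 ε h₂ h2l.le hx₂.le, nu_of_mid v 0 ε hs (e1 ▸ h2l.le) (e1 ▸ hx₂.le),
        nu_of_mid v 0 ε hd (e2 ▸ h2l.le) (e2 ▸ hx₂.le), e1, e2]
      left
      exact ⟨Sim.of_eq (one_mul _).symm, Sim.of_mul_eq_one (by rw [one_div, mul_inv_cancel₀ hb0])⟩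
    · -- (E₀, T₀)
      obtain ⟨e1, e2⟩ := trop2_E0_T0 v h2 hb₂ ha₄ ha₄0 hne hS' hP' h1 h2l
      rw [nu_of_le v 0 ε ha₄.le h₂ h2l, nu_of_le v 0 ε ha₄.le hs e1,
        nu_of_le v 0 ε ha₄.le hd e2]
      left
      exact ⟨Sim.of_eq (one_mul _).symm, Sim.of_mul_eq_one (by rw [one_div, mul_inv_cancel₀ hεne])⟩
  · rcases lt_or_ge ε (v (x₁ - 0)) with h1l | h1l
    · -- P₁ interior
      have ha0 : 0 < v (x₁ - 0) := lt_trans hε0 h1l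
      rw [nu_of_mid v 0 ε h₁ h1l.le h1.le]
      rcases lt_or_ge ε (v (x₂ - 0)) with h2l | h2l
      · -- (int, int)
        have hb0 : 0 < v (x₂ - 0) := lt_trans hε0 h2l
        rw [nu_of_mid v 0 ε h₂ h2l.le hx₂.le]
        obtain ⟨A, B, hAB, hA, hB⟩ :=
          trop2_int_int v h2 hb₂ ha₄0 hne hS' hP' h1l h1 h2l hx₂
        have hδ0 : 0 < v ((x₁ - 0) - (x₂ - 0)) :=
          zero_lt_iff.mpr ((Valuation.ne_zero_iff v).mpr (sub_ne_zero.mpr hne))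
        have hδ : (v (x₁ - 0) < v (x₂ - 0) → v ((x₁ - 0) - (x₂ - 0)) = v (x₂ - 0)) ∧
            (v (x₂ - 0) < v (x₁ - 0) → v ((x₁ - 0) - (x₂ - 0)) = v (x₁ - 0)) ∧
            (v (x₁ - 0) = v (x₂ - 0) → v ((x₁ - 0) - (x₂ - 0)) ≤ v (x₁ - 0)) :=
          ⟨fun h => Valuation.map_sub_eq_of_lt_right v h,
           fun h => Valuation.map_sub_eq_of_lt_left v h,
           fun h => Valuation.map_sub_le v le_rfl h.symm.le⟩
        have hπ : (ε < v (x₁ - 0) * v (x₂ - 0) →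
              v ((x₁ - 0) * (x₂ - 0) - W.a₄) = v (x₁ - 0) * v (x₂ - 0)) ∧
            (v (x₁ - 0) * v (x₂ - 0) < ε → v ((x₁ - 0) * (x₂ - 0) - W.a₄) = ε) ∧
            (v (x₁ - 0) * v (x₂ - 0) = ε → v ((x₁ - 0) * (x₂ - 0) - W.a₄) ≤ ε) := by
          refine ⟨fun h => ?_, fun h => ?_, fun h => ?_⟩
          · rw [Valuation.map_sub_eq_of_lt_left v (by rw [map_mul]; exact h), map_mul]
          · rw [Valuation.map_sub_eq_of_lt_right v (by rw [map_mul]; exact h)]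
          · exact Valuation.map_sub_le v (by rw [map_mul]; exact h.le) le_rfl
        have sA := sim_quot hε0 h1l h1 h2l hx₂ hδ0 hδ hA
        have sB := sim_prod hε0 h1l h1 h2l hx₂ hπ hB
        rcases hAB with ⟨e1, e2⟩ | ⟨e1, e2⟩
        · right
          rw [nu_some, nu_some, e1, e2]
          exact ⟨sA, sB⟩
        · left
          rw [nu_some, nu_some, e1, e2]
          exact ⟨sB, sA⟩
      · -- (int, T₀): swap the roles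
        obtain ⟨e1, e2⟩ := trop2_T0_int v h2 hb₂ ha₄ ha₄0 hne.symm hS'' hP'' h2l h1l h1
        obtain ⟨m1, m1'⟩ := tropQP_mid_of_mul ha0 h1l h1 e1
        obtain ⟨m2, m2'⟩ := tropQP_mid_of_mul ha0 h1l h1 e2
        rw [nu_of_le v 0 ε ha₄.le h₂ h2l, nu_of_mid v 0 ε hs m1 m1',
          nu_of_mid v 0 ε hd m2 m2']
        left
        refine ⟨Sim.of_mul_eq_sq ?_, Sim.of_mul_eq_one ?_⟩
        · rw [← mul_assoc, e1, sq]
        · rw [div_eq_mul_inv, ← mul_assoc, e2, mul_inv_cancel₀ hεne]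
    · -- P₁ ∈ T₀
      rw [nu_of_le v 0 ε ha₄.le h₁ h1l]
      rcases lt_or_ge ε (v (x₂ - 0)) with h2l | h2l
      · -- (T₀, int)
        have hb0 : 0 < v (x₂ - 0) := lt_trans hε0 h2l
        obtain ⟨e1, e2⟩ := trop2_T0_int v h2 hb₂ ha₄ ha₄0 hne hS' hP' h1l h2l hx₂
        obtain ⟨m1, m1'⟩ := tropQP_mid_of_mul hb0 h2l hx₂ e1
        obtain ⟨m2, m2'⟩ := tropQP_mid_of_mul hb0 h2l hx₂ e2
        rw [nu_of_mid v 0 ε h₂ h2l.le hx₂.le, nu_of_mid v 0 ε hs m1 m1',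
          nu_of_mid v 0 ε hd m2 m2']
        left
        refine ⟨Sim.of_mul_eq_sq ?_, Sim.of_eq ?_⟩
        · rw [mul_comm ε, ← mul_assoc, e1, sq]
        · exact eq_div_of_mul_eq (ne_of_gt hb0) e2
      · -- (T₀, T₀)
        obtain ⟨e1, e2⟩ := trop2_T0_T0 v h2 hb₂ ha₄ ha₄0 hne hS' hP' h1l h2l
        rw [nu_of_le v 0 ε ha₄.le h₂ h2l, nu_of_ge v 0 ε hs e1, nu_of_ge v 0 ε hd e2]
        left
        exact ⟨sim_one_sq hεne, Sim.of_eq (div_self hεne).symm⟩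

/-- The quasi-parallelogram law for the clipped valuation `nu v 0 (v a₄)`. -/
theorem qp2 (ha₃ : W.a₃ = 0) (ha₆ : W.a₆ = 0) (h20 : (2 : K) ≠ 0)
    (h2 : v (2 : K) ≤ 1) (hb₂ : v W.b₂ = 1) (ha₄ : v W.a₄ < 1) (ha₄0 : W.a₄ ≠ 0)
    (P₁ P₂ : W.toAffine.Point) (hP₂ : nu v 0 (v W.a₄) P₂ < 1) :
    (Sim (v W.a₄) (nu v 0 (v W.a₄) (P₁ + P₂)) (nu v 0 (v W.a₄) P₁ * nu v 0 (v W.a₄) P₂) ∧
      Sim (v W.a₄) (nu v 0 (v W.a₄) (P₁ - P₂)) (nu v 0 (v W.a₄) P₁ / nu v 0 (v W.a₄) P₂)) ∨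
    (Sim (v W.a₄) (nu v 0 (v W.a₄) (P₁ + P₂)) (nu v 0 (v W.a₄) P₁ / nu v 0 (v W.a₄) P₂) ∧
      Sim (v W.a₄) (nu v 0 (v W.a₄) (P₁ - P₂)) (nu v 0 (v W.a₄) P₁ * nu v 0 (v W.a₄) P₂)) := by
  have hε0 : 0 < v W.a₄ := zero_lt_iff.mpr ((Valuation.ne_zero_iff v).mpr ha₄0)
  have hν0 : nu v 0 (v W.a₄) P₂ ≠ 0 :=
    ne_of_gt (lt_of_lt_of_le hε0 (le_nu v 0 (v W.a₄) ha₄.le P₂))
  obtain ⟨x₂, y₂, h₂, rfl, hx₂⟩ := exists_of_nu_lt_one v 0 (v W.a₄) hP₂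
  cases P₁ with
  | zero =>
    left
    rw [show (Point.zero : W.toAffine.Point) = 0 from rfl, zero_add, zero_sub, nu_neg, nu_zero]
    exact ⟨Sim.of_eq (one_mul _).symm, Sim.of_mul_eq_one (by rw [one_div, mul_inv_cancel₀ hν0])⟩
  | some x₁ y₁ h₁ =>
    by_cases hx : x₁ = x₂
    · subst hx
      have hnu : nu v 0 (v W.a₄) (Point.some x₁ y₁ h₁) = nu v 0 (v W.a₄) (Point.some x₁ y₂ h₂) :=
        rfl
      have hdup := qp2_dup v ha₃ ha₆ h2 hb₂ ha₄ ha₄0 h₂ hx₂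
      rcases Affine.Y_eq_of_X_eq h₁.1 h₂.1 rfl with hy | hy
      · subst hy
        left
        rw [sub_self, nu_zero]
        exact ⟨hdup, Sim.of_eq (div_self hν0).symm⟩
      · have hneg : Point.some x₁ y₁ h₁ = -Point.some x₁ y₂ h₂ := by
          rw [Point.neg_some]
          congr
        right
        rw [hnu]
        rw [hneg, neg_add_cancel, nu_zero, ← neg_add', nu_neg]
        exact ⟨Sim.of_eq (div_self hν0).symm, hdup⟩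
    · exact qp2_of_X_ne v ha₃ ha₆ h20 h2 hb₂ ha₄ ha₄0 h₁ h₂ hx hx₂

/-- **Tropical step in any residue characteristic.** For `W : y² + a₁xy = x³ + a₂x² + a₄x` with
`v 2 ≤ 1`, `v b₂ = 1`, `0 < v a₄ < 1`: an odd-order torsion point `(x, y)` reducing to the node
(`v x < 1`) has `v a₄ < v x` and `v x ^ p ∈ v a₄ ^ (2ℤ)`. -/
theorem tropical_torsion_any (v : Valuation K Γ₀) {W : WeierstrassCurve K}
    (ha₃ : W.a₃ = 0) (ha₆ : W.a₆ = 0) (h20 : (2 : K) ≠ 0) (h2 : v (2 : K) ≤ 1)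
    (hb₂ : v W.b₂ = 1) (ha₄ : v W.a₄ < 1) (ha₄0 : W.a₄ ≠ 0)
    {p : ℕ} (hp : Odd p) {x y : K} (h : W.toAffine.Nonsingular x y)
    (htors : p • (WeierstrassCurve.Affine.Point.some x y h) = 0) (hx : v x < 1) :
    v W.a₄ < v x ∧ ∃ k : ℤ, v x ^ p = v W.a₄ ^ (2 * k) := by
  have hx' : v (x - 0) < 1 := by rw [sub_zero]; exact hx
  have := tropical_torsion_of_qp v (W := W) (r₁ := 0) (e₂ := W.a₄) ha₄ ha₄0
    (fun P₁ P₂ hP₂ => qp2 v ha₃ ha₆ h20 h2 hb₂ ha₄ ha₄0 P₁ P₂ hP₂) hp h htors hx'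
  rwa [sub_zero] at this

end TropTwoQP

end Fermat.Agent.S13
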