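import Mathlib
import Fermat.Agent.S13.Local.AtTwoVal
import Fermat.Agent.S13.Local.TropTwo
import Fermat.Agent.S05.Kernel
import Fermat.Agent.S05.Inertia
import Fermat.Agent.S05.LocalFix

/-!
# S13, piece P4 (step 2, general form): inertia acts unipotently at a node

`W₀ : y² + a₁xy = x³ + a₂x² + a₄x` over `ℚ`, `L/ℚ` algebraic, `A` a valuation subring of `L` with
`a₁, a₂ ∈ A`, `v b₂ = 1`, `0 < v a₄ < 1`, `p` odd and a unit of `A`, `σ` in the inertia group of
`A`.  Then for every `p`-torsion point `P` of `W₀(L)`:  `σ • (σ • P - P) = σ • P - P`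
(`local_unipotent`), and `σ • P = P` if `x(P)` is a unit (`fix_of_unit_x`).
No hypothesis on the residue characteristic.
-/

set_option autoImplicit false
set_option linter.unusedSectionVars false
set_option linter.unusedVariables false

namespace Fermat.Agent.S13

open WeierstrassCurve WeierstrassCurve.Affine
open Fermat.Agent.S05

section LocalUnip

variable {L : Type*} [Field L] [DecidableEq L] [Algebra ℚ L]

theorem atTwo_galois_a₂ (W₀ : WeierstrassCurve ℚ) (σ : L ≃ₐ[ℚ] L) :
    σ (W₀.baseChange L).a₂ = (W₀.baseChange L).a₂ := by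
  simp [WeierstrassCurve.baseChange]

/-- Inertia fixes the slopes of the branches at the node. -/
theorem inertia_fix_root (A : ValuationSubring L) {σ : L ≃ₐ[ℚ] L}
    (hσ : σ ∈ A.inertiaSubgroupIn ℚ) (W₀ : WeierstrassCurve ℚ)
    (h₁ : (W₀.baseChange L).a₁ ∈ A) (h₂ : (W₀.baseChange L).a₂ ∈ A)
    (hb₂ : A.valuation (W₀.baseChange L).b₂ = 1) {s : L}
    (hs : s ^ 2 + (W₀.baseChange L).a₁ * s - (W₀.baseChange L).a₂ = 0) : σ s = s := by
  have hv₁ : A.valuation (W₀.baseChange L).a₁ ≤ 1 := (A.valuation_le_one_iff _).2 h₁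
  have hv₂ : A.valuation (W₀.baseChange L).a₂ ≤ 1 := (A.valuation_le_one_iff _).2 h₂
  have hsA : s ∈ A := (A.valuation_le_one_iff _).1 (branch_root_val_le A.valuation hv₁ hv₂ hs)
  have hm := inertia_apply_sub_mem_nonunits hσ hsA
  have hroot : (σ s) ^ 2 + (W₀.baseChange L).a₁ * (σ s) - (W₀.baseChange L).a₂ = 0 := by
    have := congrArg σ hs
    rw [map_sub, map_add, map_mul, map_pow, galois_a₁, atTwo_galois_a₂, map_zero] at this
    exact this
  have hprod : (σ s - s) * (σ s - (-(W₀.baseChange L).a₁ - s)) = 0 := by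
    linear_combination hroot - hs
  rcases mul_eq_zero.1 hprod with h | h
  · exact sub_eq_zero.1 h
  · exfalso
    have e : σ s - s = -(2 * s + (W₀.baseChange L).a₁) := by
      linear_combination h
    rw [e, A.mem_nonunits_iff, Valuation.map_neg, branch_disc_val A.valuation hs hb₂] at hm
    exact lt_irrefl _ hm

/-- A `p`-torsion point with unit `x`-coordinate is fixed by inertia. -/
theorem fix_of_unit_x (A : ValuationSubring L) {σ : L ≃ₐ[ℚ] L}
    (hσ : σ ∈ A.inertiaSubgroupIn ℚ) (W₀ : WeierstrassCurve ℚ)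
    (ha₃ : (W₀.baseChange L).a₃ = 0) (ha₆ : (W₀.baseChange L).a₆ = 0)
    (h₁ : (W₀.baseChange L).a₁ ∈ A) (h₂ : (W₀.baseChange L).a₂ ∈ A)
    (hb₂ : A.valuation (W₀.baseChange L).b₂ = 1)
    (ha₄ : A.valuation (W₀.baseChange L).a₄ < 1)
    (p : ℕ) (hp : (p : L) ∉ A.nonunits)
    {x y : L} (h : (W₀.baseChange L).toAffine.Nonsingular x y)
    (htors : p • Point.some x y h = 0) (hx : A.valuation x = 1) : σ x = x ∧ σ y = y := by
  classical
  have h₃ : (W₀.baseChange L).a₃ ∈ A := by rw [ha₃]; exact zero_mem A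
  have h₆ : (W₀.baseChange L).a₆ ∈ A := by rw [ha₆]; exact zero_mem A
  have h₄ : (W₀.baseChange L).a₄ ∈ A := (A.valuation_le_one_iff _).1 ha₄.le
  have hv₁ : A.valuation (W₀.baseChange L).a₁ ≤ 1 := (A.valuation_le_one_iff _).2 h₁
  have hv₂ : A.valuation (W₀.baseChange L).a₂ ≤ 1 := (A.valuation_le_one_iff _).2 h₂
  have hv₃ : A.valuation (W₀.baseChange L).a₃ ≤ 1 := (A.valuation_le_one_iff _).2 h₃
  have hxA : x ∈ A := (A.valuation_le_one_iff _).1 hx.le
  have hyA : y ∈ A := no_torsion_of_not_mem_y A _ h₁ h₂ h₃ h₄ h₆ p hp h htors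
  have hvy : A.valuation y ≤ 1 := (A.valuation_le_one_iff _).2 hyA
  by_contra hcon
  have h' : (W₀.baseChange L).toAffine.Nonsingular (σ x) (σ y) :=
    (WeierstrassCurve.Affine.baseChange_nonsingular W₀ (f := σ.toAlgHom)
      σ.toAlgHom.injective x y).mpr h
  have hsm : σ • (Point.some x y h : (W₀⁄L).Point) = Point.some (σ x) (σ y) h' :=
    galois_smul_some σ h
  have htors' : p • Point.some (σ x) (σ y) h' = 0 := by
    have := Point.algEquiv_smul_zsmul σ (p : ℤ) (Point.some x y h : (W₀⁄L).Point)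
    rw [natCast_zsmul, natCast_zsmul, htors, hsm] at this
    rw [← this]
    rfl
  have hne : Point.some (σ x) (σ y) h' ≠ Point.some x y h := by
    intro heq
    rw [Point.some.injEq] at heq
    exact hcon heq
  have htorsQ : p • (Point.some (σ x) (σ y) h' - Point.some x y h) = 0 := by
    rw [smul_sub, htors, htors', sub_zero]
  have hxx : A.valuation (σ x - x) < 1 :=
    (A.mem_nonunits_iff).1 (inertia_apply_sub_mem_nonunits hσ hxA)
  have hyy : A.valuation (σ y - y) < 1 :=
    (A.mem_nonunits_iff).1 (inertia_apply_sub_mem_nonunits hσ hyA)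
  have hns := nonsing_of_unit_x A.valuation ha₃ ha₆ hv₁ hv₂ hb₂ ha₄ h.1 hx hvy
  obtain ⟨x'', y'', h'', hQ, hlt⟩ :=
    key_nonsing_any A.valuation hv₁ hv₂ hv₃ h h' hx.le hvy hxx hyy hne hns
  rw [hQ] at htorsQ
  have := no_torsion_of_not_mem A _ h₁ h₂ h₃ h₄ h₆ p hp h'' htorsQ
  rw [← A.valuation_le_one_iff] at this
  exact absurd hlt (not_lt.2 this)

/-- **Inertia acts unipotently at a node**: `(σ - 1)² = 0` on `p`-torsion points. -/
theorem local_unipotent [Algebra.IsAlgebraic ℚ L] (A : ValuationSubring L) {σ : L ≃ₐ[ℚ] L}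
    (hσ : σ ∈ A.inertiaSubgroupIn ℚ) (W₀ : WeierstrassCurve ℚ)
    (ha₃ : (W₀.baseChange L).a₃ = 0) (ha₆ : (W₀.baseChange L).a₆ = 0)
    (h₁ : (W₀.baseChange L).a₁ ∈ A) (h₂ : (W₀.baseChange L).a₂ ∈ A)
    (hb₂ : A.valuation (W₀.baseChange L).b₂ = 1)
    (ha₄ : A.valuation (W₀.baseChange L).a₄ < 1) (ha₄0 : (W₀.baseChange L).a₄ ≠ 0)
    (p : ℕ) (hp : (p : L) ∉ A.nonunits) (hodd : Odd p)
    {s : L} (hs : s ^ 2 + (W₀.baseChange L).a₁ * s - (W₀.baseChange L).a₂ = 0)
    {x y : L} (h : (W₀.baseChange L).toAffine.Nonsingular x y)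
    (htors : p • Point.some x y h = 0) :
    σ • (σ • (Point.some x y h : (W₀⁄L).Point) - Point.some x y h) =
      σ • (Point.some x y h : (W₀⁄L).Point) - Point.some x y h := by
  classical
  have hchar : CharZero L := algebraRat.charZero L
  have h20 : (2 : L) ≠ 0 := two_ne_zero
  have h₃ : (W₀.baseChange L).a₃ ∈ A := by rw [ha₃]; exact zero_mem A
  have h₆ : (W₀.baseChange L).a₆ ∈ A := by rw [ha₆]; exact zero_mem A
  have h₄ : (W₀.baseChange L).a₄ ∈ A := (A.valuation_le_one_iff _).1 ha₄.le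
  have hxA : x ∈ A := no_torsion_of_not_mem A _ h₁ h₂ h₃ h₄ h₆ p hp h htors
  have hyA : y ∈ A := no_torsion_of_not_mem_y A _ h₁ h₂ h₃ h₄ h₆ p hp h htors
  have hvx : A.valuation x ≤ 1 := (A.valuation_le_one_iff _).2 hxA
  have h' : (W₀.baseChange L).toAffine.Nonsingular (σ x) (σ y) :=
    (WeierstrassCurve.Affine.baseChange_nonsingular W₀ (f := σ.toAlgHom)
      σ.toAlgHom.injective x y).mpr h
  have hsm : σ • (Point.some x y h : (W₀⁄L).Point) = Point.some (σ x) (σ y) h' :=
    galois_smul_some σ h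
  have htors' : p • Point.some (σ x) (σ y) h' = 0 := by
    have := Point.algEquiv_smul_zsmul σ (p : ℤ) (Point.some x y h : (W₀⁄L).Point)
    rw [natCast_zsmul, natCast_zsmul, htors, hsm] at this
    rw [← this]
    rfl
  rw [hsm]
  by_cases hPP : Point.some (σ x) (σ y) h' = Point.some x y h
  · rw [hPP, sub_self]
    exact galois_smul_zero σ
  have htorsQ : p • (Point.some (σ x) (σ y) h' - Point.some x y h) = 0 := by
    rw [smul_sub, htors, htors', sub_zero]
  rcases hvx.lt_or_eq with hlt | heq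
  · -- `P` reduces to the node
    obtain ⟨hlow, -⟩ := tropical_torsion_any A.valuation ha₃ ha₆ h20
      (keyAny_val_two_le A.valuation) hb₂ ha₄ ha₄0 hodd h htors hlt
    have hx0 : x ≠ 0 := by
      intro h0
      rw [h0, map_zero] at hlow
      exact not_lt_zero hlow
    have hvσ : A.valuation (σ x) = A.valuation x := inertia_valuation_apply hσ x
    -- the claim for a branch slope `t` fixed by `σ`
    have key : ∀ t : L, t ^ 2 + (W₀.baseChange L).a₁ * t - (W₀.baseChange L).a₂ = 0 →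
        A.valuation (y - t * x) < A.valuation x →
        ∃ (x'' y'' : L) (h'' : (W₀.baseChange L).toAffine.Nonsingular x'' y''),
          Point.some (σ x) (σ y) h' - Point.some x y h = Point.some x'' y'' h'' ∧
            1 ≤ A.valuation x'' := by
      intro t ht hb
      have hσt : σ t = t := inertia_fix_root A hσ W₀ h₁ h₂ hb₂ ht
      have hb' : A.valuation (σ y - t * σ x) < A.valuation (σ x) := by
        have e : σ y - t * σ x = σ (y - t * x) := by
          rw [map_sub, map_mul, hσt]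
        rw [e, inertia_valuation_apply hσ, hvσ]
        exact hb
      exact branch_sub_val A.valuation ha₃ hb₂ ht h h' hx0 hlt hvσ hb hb' hPP
    have hQ : ∃ (x'' y'' : L) (h'' : (W₀.baseChange L).toAffine.Nonsingular x'' y''),
        Point.some (σ x) (σ y) h' - Point.some x y h = Point.some x'' y'' h'' ∧
          1 ≤ A.valuation x'' := by
      rcases branch_exists A.valuation ha₃ ha₆ hs h.1 hlt hlow with hb | hb
      · exact key s hs hb
      · exact key _ (branch_other_root hs) hb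
    obtain ⟨x'', y'', h'', hQe, hge⟩ := hQ
    rw [hQe] at htorsQ ⊢
    have hx''A : x'' ∈ A := no_torsion_of_not_mem A _ h₁ h₂ h₃ h₄ h₆ p hp h'' htorsQ
    have hvx'' : A.valuation x'' = 1 :=
      le_antisymm ((A.valuation_le_one_iff _).2 hx''A) hge
    obtain ⟨e1, e2⟩ := fix_of_unit_x A hσ W₀ ha₃ ha₆ h₁ h₂ hb₂ ha₄ p hp h'' htorsQ hvx''
    exact galois_smul_some_eq_self σ h'' e1 e2
  · -- `x` is a unit: `σ P = P`
    obtain ⟨e1, e2⟩ := fix_of_unit_x A hσ W₀ ha₃ ha₆ h₁ h₂ hb₂ ha₄ p hp h htors heq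
    exfalso
    apply hPP
    rw [Point.some.injEq]
    exact ⟨e1, e2⟩

end LocalUnip

end Fermat.Agent.S13
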