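import Mathlib
import Fermat.Agent.S13.Interface
import Fermat.Agent.S13.Local.AtTwo
import Fermat.Agent.S05.FreyArith
import Fermat.Agent.S04.FreyInt
import Fermat.Agent.Common.FrobProfinite

/-!
# S13, piece P4 (step 2): the Frey curve at a place over `2`

* `freyTwo_data`: at a place `A | 2` of a `ℚ`-algebra `L`, the Frey curve
  `y² + xy = x³ + a₂x² + a₄x` has `a₁, a₂ ∈ A`, `v b₂ = 1`, `0 < v a₄ < 1`, and `p` is a unit.
* `stmtAtTwo : StmtAtTwo`: inertia at (every) place over `2` acts unipotently on `E[p]`.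
-/

set_option autoImplicit false
set_option linter.unusedSectionVars false
set_option linter.unusedVariables false

namespace Fermat.Agent.S13

open WeierstrassCurve WeierstrassCurve.Affine
open Fermat.Agent.S05

section FreyTwo

variable (P : FreyPackage) {L : Type*} [Field L] [Algebra ℚ L]

theorem freyTwo_two_dvd_b (P : FreyPackage) : (2 : ℤ) ∣ P.b :=
  (ZMod.intCast_zmod_eq_zero_iff_dvd P.b 2).1 P.hb2

theorem freyTwo_not_two_dvd_a (P : FreyPackage) : ¬ (2 : ℤ) ∣ P.a := by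
  intro h
  have h4 := P.ha4
  obtain ⟨k, hk⟩ := h
  rw [hk] at h4
  have : ((2 * k : ℤ) : ZMod 4) = 3 := h4
  have h2 : ((2 * (2 * k) : ℤ) : ZMod 4) = 2 * 3 := by
    rw [Int.cast_mul, this]; rfl
  have h3 : ((2 * (2 * k) : ℤ) : ZMod 4) = 0 := by
    rw [(ZMod.intCast_zmod_eq_zero_iff_dvd _ 4)]
    exact ⟨k, by ring⟩
  rw [h3] at h2
  exact absurd h2 (by decide)

/-- `a₂` is an integer. -/
theorem freyTwo_a₂ : ∃ m : ℤ, (P.freyCurve.baseChange L).a₂ = (m : L) := by
  have hchar := charZero_of_algebraRat L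
  obtain ⟨m, hm⟩ := Fermat.Agent.S04.frey_four_dvd P
  refine ⟨m, ?_⟩
  rw [frey_a₂]
  have : ((P.b : L) ^ P.p - 1 - (P.a : L) ^ P.p) = 4 * (m : L) := by
    have := congrArg (fun t : ℤ => (t : L)) hm
    simpa using this
  rw [this]
  field_simp

/-- `a₄` is an even integer. -/
theorem freyTwo_a₄ : ∃ m : ℤ, (P.freyCurve.baseChange L).a₄ = ((2 * m : ℤ) : L) := by
  have hchar := charZero_of_algebraRat L
  obtain ⟨n, hn⟩ := Fermat.Agent.S04.frey_thirtytwo_dvd_b_pow P
  refine ⟨-(P.a ^ P.p) * n, ?_⟩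
  rw [frey_a₄]
  have : (P.b : L) ^ P.p = 32 * (n : L) := by
    have := congrArg (fun t : ℤ => (t : L)) hn
    simpa using this
  rw [this]
  push_cast
  ring

theorem freyTwo_a₄_ne_zero : (P.freyCurve.baseChange L).a₄ ≠ 0 := by
  have hchar := charZero_of_algebraRat L
  rw [frey_a₄]
  have ha : (P.a : L) ≠ 0 := by exact_mod_cast P.ha0
  have hb : (P.b : L) ≠ 0 := by exact_mod_cast P.hb0
  have h16 : (16 : L) ≠ 0 := by norm_num
  exact div_ne_zero (mul_ne_zero (neg_ne_zero.2 (pow_ne_zero _ ha)) (pow_ne_zero _ hb)) h16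

/-- `b₂ = b^p - a^p` is an odd integer. -/
theorem freyTwo_b₂_odd : ¬ (2 : ℤ) ∣ P.b ^ P.p - P.a ^ P.p := by
  intro h
  have hb : (2 : ℤ) ∣ P.b ^ P.p := dvd_pow (freyTwo_two_dvd_b P) P.hp0
  have ha : (2 : ℤ) ∣ P.a ^ P.p := by
    have := dvd_sub hb h
    simpa using this
  exact freyTwo_not_two_dvd_a P (Int.prime_two.dvd_of_dvd_pow ha)

/-- The data of the Frey curve at a place over `2`. -/
theorem freyTwo_data (A : ValuationSubring L) (hA : A.LiesOverPrime 2) :
    (P.freyCurve.baseChange L).a₃ = 0 ∧ (P.freyCurve.baseChange L).a₆ = 0 ∧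
    (P.freyCurve.baseChange L).a₁ ∈ A ∧ (P.freyCurve.baseChange L).a₂ ∈ A ∧
    A.valuation (P.freyCurve.baseChange L).b₂ = 1 ∧
    A.valuation (P.freyCurve.baseChange L).a₄ < 1 ∧
    (P.freyCurve.baseChange L).a₄ ≠ 0 ∧ ((P.p : ℕ) : L) ∉ A.nonunits := by
  have hchar := charZero_of_algebraRat L
  refine ⟨frey_a₃ P L, frey_a₆ P L, ?_, ?_, ?_, ?_, freyTwo_a₄_ne_zero P, ?_⟩
  · rw [frey_a₁]; exact A.one_mem
  · obtain ⟨m, hm⟩ := freyTwo_a₂ P (L := L)
    rw [hm]; exact intCast_mem A m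
  · rw [frey_b₂]
    have : (P.b : L) ^ P.p - (P.a : L) ^ P.p = ((P.b ^ P.p - P.a ^ P.p : ℤ) : L) := by
      push_cast; ring
    rw [this, valuation_intCast_eq_one_iff A Nat.prime_two hA]
    exact_mod_cast freyTwo_b₂_odd P
  · obtain ⟨m, hm⟩ := freyTwo_a₄ P (L := L)
    rw [hm, valuation_intCast_lt_one_iff A Nat.prime_two hA]
    exact ⟨m, by push_cast; ring⟩
  · rw [natCast_mem_nonunits_iff A Nat.prime_two hA]
    intro hdvd
    have := (Nat.prime_dvd_prime_iff_eq Nat.prime_two P.pp).1 hdvd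
    have h5 := P.hp5
    omega

end FreyTwo

section Stmt

open WeierstrassCurve.Affine.Point

/-- A branch slope exists over an algebraically closed field. -/
theorem exists_branch_root {L : Type*} [Field L] [IsAlgClosed L] (h2 : (2 : L) ≠ 0)
    (W : WeierstrassCurve L) : ∃ s : L, s ^ 2 + W.a₁ * s - W.a₂ = 0 := by
  obtain ⟨r, hr⟩ := IsAlgClosed.exists_pow_nat_eq W.b₂ (n := 2) (by norm_num)
  refine ⟨(r - W.a₁) / 2, ?_⟩
  simp only [WeierstrassCurve.b₂] at hr
  field_simp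
  linear_combination hr

/-- **`StmtAtTwo`**: at a place over `2`, inertia acts unipotently on `E[p]` of the Frey curve. -/
theorem stmtAtTwo : StmtAtTwo := by
  intro P
  obtain ⟨A, hA⟩ := Fermat.Agent.Common.exists_liesOverPrime 2 Nat.prime_two
  refine ⟨A, hA, ?_⟩
  intro σ hσ x
  have : Algebra.IsAlgebraic ℚ Qbar := isAlgebraic_rat_qbar_of _
  have hchar : CharZero Qbar := algebraRat.charZero Qbar
  obtain ⟨ha₃, ha₆, h₁, h₂, hb₂, ha₄, ha₄0, hp⟩ := freyTwo_data P A hA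
  obtain ⟨s, hs⟩ := exists_branch_root (two_ne_zero) (P.freyCurve.baseChange Qbar)
  apply Subtype.ext
  obtain ⟨Pt, hPt⟩ := x
  change σ • (σ • Pt - Pt) = σ • Pt - Pt
  rw [Submodule.mem_torsionBy_iff] at hPt
  cases Pt with
  | zero =>
    have h0 : (Point.zero : (P.freyCurve⁄Qbar).Point) = 0 := rfl
    rw [h0, galois_smul_zero, sub_self, galois_smul_zero]
  | some x y h =>
    have htors : P.p • (Point.some x y h : (P.freyCurve⁄Qbar).Point) = 0 := by
      rw [← natCast_zsmul]; exact hPt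
    exact local_unipotent A hσ P.freyCurve ha₃ ha₆ h₁ h₂ hb₂ ha₄ ha₄0 P.p hp P.hp_odd hs h htors

end Stmt

end Fermat.Agent.S13
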