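import Mathlib
import Fermat.Agent.S05.FreyArith

/-!
# S13, step 5 (no rational point of order `p`): valuations of rational numbers at a place over `q`

`A` a valuation subring of `L ⊇ ℚ` over the prime `q`:
* `noFixed_val_lt_one`: `v q < 1`, `v q ≠ 0`;
* `noFixed_val_int`, `noFixed_val_rat`: the valuation of a nonzero rational number is `v q ^ n`;
* `noFixed_rat_residue_two`: at `q = 2` an integral rational number is `≡ 0` or `≡ 1` mod `𝔪`.
-/

set_option autoImplicit false
set_option linter.unusedSectionVars false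
set_option linter.unusedVariables false

namespace Fermat.Agent.S13

open Fermat.Agent.S05

section RatVal

variable {L : Type*} [Field L] [Algebra ℚ L] (A : ValuationSubring L) {q : ℕ}

theorem noFixed_val_lt_one (hA : A.LiesOverPrime q) : A.valuation (q : L) < 1 :=
  (A.mem_nonunits_iff).1 hA

theorem noFixed_val_ne_zero (hq : q.Prime) : A.valuation (q : L) ≠ 0 := by
  have := charZero_of_algebraRat L
  rw [Valuation.ne_zero_iff]
  exact_mod_cast hq.ne_zero

theorem noFixed_val_pos (hq : q.Prime) : 0 < A.valuation (q : L) :=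
  zero_lt_iff.2 (noFixed_val_ne_zero A hq)

/-- the valuation of a nonzero natural number is a power of `v q`. -/
theorem noFixed_val_nat (hq : q.Prime) (hA : A.LiesOverPrime q) {n : ℕ} (hn : n ≠ 0) :
    ∃ e : ℕ, A.valuation (n : L) = A.valuation (q : L) ^ e ∧ (q ^ e ∣ n) ∧ ¬ q ^ (e + 1) ∣ n := by
  obtain ⟨e, n', hn', rfl⟩ := Nat.exists_eq_pow_mul_and_not_dvd hn q hq.ne_one
  refine ⟨e, ?_, Dvd.intro _ rfl, ?_⟩
  · have h1 : A.valuation (n' : L) = 1 := by
      rw [valuation_natCast_eq_one_iff A hq hA]
      exact hn'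
    rw [Nat.cast_mul, Nat.cast_pow, map_mul, map_pow, h1, mul_one]
  · intro hdvd
    rw [pow_succ] at hdvd
    exact hn' ((Nat.mul_dvd_mul_iff_left (pow_pos hq.pos e)).1 hdvd)

/-- the valuation of a nonzero rational number is an integral power of `v q`. -/
theorem noFixed_val_rat (hq : q.Prime) (hA : A.LiesOverPrime q) {r : ℚ} (hr : r ≠ 0) :
    ∃ n : ℤ, A.valuation (algebraMap ℚ L r) = A.valuation (q : L) ^ n := by
  have hchar := charZero_of_algebraRat L
  have hnum : r.num.natAbs ≠ 0 := Int.natAbs_ne_zero.2 (Rat.num_ne_zero.2 hr)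
  obtain ⟨e₁, h₁, -, -⟩ := noFixed_val_nat A hq hA hnum
  obtain ⟨e₂, h₂, -, -⟩ := noFixed_val_nat A hq hA r.den_ne_zero
  refine ⟨(e₁ : ℤ) - e₂, ?_⟩
  have hvnum : A.valuation ((r.num : ℤ) : L) = A.valuation (q : L) ^ e₁ := by
    rw [← h₁]
    rcases Int.natAbs_eq r.num with h | h
    · conv_lhs => rw [h]
      simp
    · conv_lhs => rw [h]
      simp
  rw [eq_ratCast, Rat.cast_def, map_div₀, hvnum, h₂, zpow_sub₀ (noFixed_val_ne_zero A hq),
    zpow_natCast, zpow_natCast]

/-- at a place over `2`, an integer is `≡ 0` or `≡ 1` modulo the maximal ideal. -/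
theorem noFixed_int_residue_two (hA : A.LiesOverPrime 2) (n : ℤ) :
    A.valuation (n : L) < 1 ∨ A.valuation ((n : L) - 1) < 1 := by
  rcases Int.even_or_odd n with h | h
  · left
    rw [valuation_intCast_lt_one_iff A Nat.prime_two hA]
    exact_mod_cast h.two_dvd
  · right
    have : ((n : L) - 1) = ((n - 1 : ℤ) : L) := by push_cast; ring
    rw [this, valuation_intCast_lt_one_iff A Nat.prime_two hA]
    obtain ⟨k, hk⟩ := h
    exact ⟨k, by rw [hk]; push_cast; ring⟩

/-- at a place over `2`, an integral rational number is `≡ 0` or `≡ 1` modulo the maximal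
ideal. -/
theorem noFixed_rat_residue_two (hA : A.LiesOverPrime 2) (r : ℚ)
    (hr : A.valuation (algebraMap ℚ L r) ≤ 1) :
    A.valuation (algebraMap ℚ L r) < 1 ∨ A.valuation (algebraMap ℚ L r - 1) < 1 := by
  have hchar := charZero_of_algebraRat L
  have hden0 : (r.den : L) ≠ 0 := by exact_mod_cast r.den_ne_zero
  -- the denominator is odd
  have hden : A.valuation (r.den : L) = 1 := by
    rw [valuation_natCast_eq_one_iff A Nat.prime_two hA]
    intro h2
    have hnum : ¬ (2 : ℤ) ∣ r.num := by
      intro h2'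
      have hcop := r.reduced
      have h3 : (2 : ℕ) ∣ r.num.natAbs := Int.natCast_dvd.1 (by exact_mod_cast h2')
      have := Nat.dvd_gcd h3 h2
      rw [Nat.Coprime] at hcop
      rw [hcop] at this
      exact absurd this (by norm_num)
    have hvnum : A.valuation ((r.num : ℤ) : L) = 1 := by
      rw [valuation_intCast_eq_one_iff A Nat.prime_two hA]
      exact_mod_cast hnum
    have hvden : A.valuation (r.den : L) < 1 := by
      have := (valuation_intCast_lt_one_iff A Nat.prime_two hA (r.den : ℤ)).2 (by exact_mod_cast h2)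
      simpa using this
    rw [eq_ratCast, Rat.cast_def, map_div₀, hvnum] at hr
    have hpos : 0 < A.valuation (r.den : L) := zero_lt_iff.2 ((Valuation.ne_zero_iff _).2 hden0)
    rw [div_le_iff₀ hpos, one_mul] at hr
    exact absurd hvden (not_lt.2 hr)
  have e1 : algebraMap ℚ L r = (r.num : L) / (r.den : L) := by
    rw [eq_ratCast, Rat.cast_def]
  have e2 : algebraMap ℚ L r - 1 = (((r.num - r.den : ℤ) : L)) / (r.den : L) := by
    rw [e1]
    field_simp
    push_cast
    ring
  rcases Int.even_or_odd r.num with h | h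
  · left
    rw [e1, map_div₀, hden, div_one, valuation_intCast_lt_one_iff A Nat.prime_two hA]
    exact_mod_cast h.two_dvd
  · right
    rw [e2, map_div₀, hden, div_one, valuation_intCast_lt_one_iff A Nat.prime_two hA]
    have hdo : Odd (r.den : ℤ) := by
      rw [valuation_natCast_eq_one_iff A Nat.prime_two hA] at hden
      rw [← Int.not_even_iff_odd, even_iff_two_dvd]
      exact_mod_cast hden
    exact_mod_cast (h.sub_odd hdo).two_dvd

end RatVal

end Fermat.Agent.S13
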