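import Mathlib
import Fermat.Agent.S13.Interface
import Fermat.Agent.S13.Local.NoFixedFrey
import Fermat.Agent.S13.Local.KeyAny
import Fermat.Agent.S05.Kernel
import Fermat.Agent.S05.Inertia
import Fermat.Agent.S51.GaloisFixed
import Fermat.Agent.Common.FrobProfinite
import Fermat.Agent.S13.Local.TropTwo
import Fermat.Agent.S13.Local.FreyAtTwo

/-!
# S13, step 5: the Frey curve has no rational point of order `p`

`noFixed_of_trop`: `StmtNoFixed` from the tropical statement at a place over `2`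
(`NoFixedTrop`, an instance of `tropical_torsion_any`).

Proof: a Galois-fixed `p`-torsion point `Q = (x₀, y₀) ≠ 0` has rational coordinates, integral at
`A ∣ 2`.  (i) `v x₀ < 1` is impossible by the tropical statement, since `v a₄ = v 2 ^ N` with
`p ∤ 2N` and `v x₀ ∈ v 2 ^ ℤ`.  (ii) If `v x₀ = 1`, then `2Q = (x₂, y₂)` has `x₂ ≡ x₀ ≡ 1` and
`y₂ ≡ y₀` or `y₂ ≡ y₀ + 1 ≡ -y₀ - x₀` modulo `𝔪` (the residue field of `ℚ ∩ A` is `𝔽₂`), so `2Q`
has the same nonsingular reduction as `Q` or as `-Q`; hence `Q` or `3Q` has non-integral `x`,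
contradicting the integrality of `p`-torsion points.
-/

set_option autoImplicit false
set_option linter.unusedSectionVars false
set_option linter.unusedVariables false

namespace Fermat.Agent.S13

open Fermat.Agent.S05 WeierstrassCurve WeierstrassCurve.Affine

/-- exponent arithmetic for step (i). -/
theorem noFixed_exponent {Γ : Type*} [LinearOrderedCommGroupWithZero Γ] {t : Γ} (ht0 : 0 < t)
    (ht1 : t < 1) {p : ℕ} (hp : p.Prime) {N n k : ℤ} (hN : ¬ (p : ℤ) ∣ 2 * N)
    (h1 : t ^ N < t ^ n) (h2 : t ^ n < 1) (h3 : (t ^ n) ^ p = (t ^ N) ^ (2 * k)) : False := by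
  have hnN : n < N := (zpow_lt_zpow_iff_right_of_lt_one₀ ht0 ht1).1 h1
  have hn0 : 0 < n := by
    rw [← zpow_zero t] at h2
    exact (zpow_lt_zpow_iff_right_of_lt_one₀ ht0 ht1).1 h2
  have heq : n * p = N * (2 * k) := by
    rw [← zpow_natCast, ← zpow_mul, ← zpow_mul] at h3
    exact (zpow_right_inj₀ ht0 ht1.ne).1 h3
  have hpk : (p : ℤ) ∣ k := by
    have hpp : Prime (p : ℤ) := Nat.prime_iff_prime_int.1 hp
    have : (p : ℤ) ∣ (2 * N) * k := ⟨n, by linarith⟩
    exact (hpp.dvd_or_dvd this).resolve_left hN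
  obtain ⟨k', rfl⟩ := hpk
  have hp0 : (p : ℤ) ≠ 0 := by exact_mod_cast hp.ne_zero
  have hn : n = 2 * N * k' := by
    have : n * p = (2 * N * k') * p := by rw [heq]; ring
    exact mul_right_cancel₀ hp0 this
  have hN0 : 0 < N := lt_trans hn0 hnN
  have hk' : 0 < k' := by
    by_contra hcon
    rw [not_lt] at hcon
    have : 2 * N * k' ≤ 0 := by nlinarith
    omega
  nlinarith

/-- an element killed by two coprime integers is zero. -/
theorem noFixed_eq_zero_of_coprime {G : Type*} [AddGroup G] {Q : G} {m n : ℕ}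
    (hmn : Nat.Coprime m n) (hm : m • Q = 0) (hn : n • Q = 0) : Q = 0 := by
  have h1 := addOrderOf_dvd_iff_nsmul_eq_zero.2 hm
  have h2 := addOrderOf_dvd_iff_nsmul_eq_zero.2 hn
  have h3 := Nat.dvd_gcd h1 h2
  rw [Nat.Coprime] at hmn
  rw [hmn] at h3
  exact AddMonoid.addOrderOf_eq_one_iff.1 (Nat.dvd_one.1 h3)

section Fixed

variable (P : FreyPackage)

theorem noFixed_smul_add (σ : Gal) (Q R : (P.freyCurve⁄Qbar).Point) :
    σ • (Q + R) = σ • Q + σ • R := by
  rw [Point.algEquiv_smul_def, Point.algEquiv_smul_def, Point.algEquiv_smul_def, map_add]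

/-- a Galois-fixed affine point has rational coordinates. -/
theorem noFixed_coords_rat {x y : Qbar}
    (h : (P.freyCurve.baseChange Qbar).toAffine.Nonsingular x y)
    (hfix : ∀ σ : Gal, σ • (Point.some x y h : (P.freyCurve⁄Qbar).Point) = Point.some x y h) :
    (∃ r : ℚ, algebraMap ℚ Qbar r = x) ∧ (∃ r : ℚ, algebraMap ℚ Qbar r = y) := by
  have hxy : ∀ σ : Gal, σ x = x ∧ σ y = y := by
    intro σ
    have := hfix σ
    rw [galois_smul_some] at this
    exact Point.some.inj this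
  exact ⟨Fermat.Agent.S51.galois_fixed_rat x (fun σ => (hxy σ).1),
    Fermat.Agent.S51.galois_fixed_rat y (fun σ => (hxy σ).2)⟩

/-- The tropical statement at a place over `2` (instance of `tropical_torsion_any`). -/
def NoFixedTrop (A : ValuationSubring Qbar) : Prop :=
  ∀ {x y : Qbar} (h : (P.freyCurve.baseChange Qbar).toAffine.Nonsingular x y),
    P.p • Point.some x y h = 0 → A.valuation x < 1 →
    A.valuation (P.freyCurve.baseChange Qbar).a₄ < A.valuation x ∧
      ∃ k : ℤ, A.valuation x ^ P.p = A.valuation (P.freyCurve.baseChange Qbar).a₄ ^ (2 * k)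

theorem noFixed_core (A : ValuationSubring Qbar) (hA : A.LiesOverPrime 2)
    (htrop : NoFixedTrop P A) {x₀ y₀ : Qbar}
    (h : (P.freyCurve.baseChange Qbar).toAffine.Nonsingular x₀ y₀)
    (htors : P.p • Point.some x₀ y₀ h = 0)
    (hfix : ∀ σ : Gal,
      σ • (Point.some x₀ y₀ h : (P.freyCurve⁄Qbar).Point) = Point.some x₀ y₀ h) :
    False := by
  obtain ⟨h₁, h₂, h₃, h₄, h₆⟩ := noFixed_coeff_mem P A hA
  have hpu := noFixed_p_unit P A hA
  have hQ0 : (Point.some x₀ y₀ h : (P.freyCurve⁄Qbar).Point) ≠ 0 := Point.some_ne_zero h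
  have hv2lt : A.valuation (2 : Qbar) < 1 := by
    have := noFixed_val_lt_one A hA
    simpa using this
  have hv2pos : 0 < A.valuation (2 : Qbar) := by
    rw [zero_lt_iff, Valuation.ne_zero_iff]
    exact two_ne_zero
  have hva₁ : A.valuation (P.freyCurve.baseChange Qbar).a₁ ≤ 1 := (A.valuation_le_one_iff _).2 h₁
  have hva₂ : A.valuation (P.freyCurve.baseChange Qbar).a₂ ≤ 1 := (A.valuation_le_one_iff _).2 h₂
  have hva₃ : A.valuation (P.freyCurve.baseChange Qbar).a₃ ≤ 1 := (A.valuation_le_one_iff _).2 h₃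
  -- integrality and rationality of `Q`
  have hx₀A : x₀ ∈ A := no_torsion_of_not_mem A _ h₁ h₂ h₃ h₄ h₆ P.p hpu h htors
  have hy₀A : y₀ ∈ A := no_torsion_of_not_mem_y A _ h₁ h₂ h₃ h₄ h₆ P.p hpu h htors
  have hvx₀le : A.valuation x₀ ≤ 1 := (A.valuation_le_one_iff _).2 hx₀A
  have hvy₀le : A.valuation y₀ ≤ 1 := (A.valuation_le_one_iff _).2 hy₀A
  obtain ⟨⟨rx, hrx⟩, ⟨ry, hry⟩⟩ := noFixed_coords_rat P h hfix
  -- step (i): `v x₀ = 1`
  have hvx : A.valuation x₀ = 1 := by
    by_contra hne1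
    have hlt : A.valuation x₀ < 1 := lt_of_le_of_ne hvx₀le hne1
    obtain ⟨hlow, k, hk⟩ := htrop h htors hlt
    have hx0 : x₀ ≠ 0 := by
      intro h0
      rw [h0, map_zero] at hlow
      exact not_lt_zero hlow
    have hrx0 : rx ≠ 0 := by
      rintro rfl
      apply hx0
      rw [← hrx, map_zero]
    obtain ⟨n, hn⟩ := noFixed_val_rat A Nat.prime_two hA hrx0
    rw [hrx] at hn
    obtain ⟨N, hN1, hNp, hNv⟩ := noFixed_val_a₄ P A hA
    have hn' : A.valuation x₀ = A.valuation (2 : Qbar) ^ n := by simpa using hn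
    rw [hn', hNv] at hk hlow
    rw [hn'] at hlt
    exact noFixed_exponent hv2pos hv2lt P.pp hNp hlow hlt hk
  -- step (ii)
  have hη_eq : eta (P.freyCurve.baseChange Qbar) x₀ y₀ = 2 * y₀ + x₀ := noFixed_eta P x₀ y₀
  have hp5 := P.hp5
  have hcop2 : Nat.Coprime 2 P.p := (Nat.coprime_primes Nat.prime_two P.pp).2 (by omega)
  have hcop3 : Nat.Coprime 3 P.p := (Nat.coprime_primes Nat.prime_three P.pp).2 (by omega)
  have hη0 : eta (P.freyCurve.baseChange Qbar) x₀ y₀ ≠ 0 := by
    intro h0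
    have h2Q : Point.some x₀ y₀ h + Point.some x₀ y₀ h = 0 := add_self_of_eta_eq h h0
    have : 2 • (Point.some x₀ y₀ h : (P.freyCurve⁄Qbar).Point) = 0 := by
      rw [two_nsmul]; exact h2Q
    exact hQ0 (noFixed_eq_zero_of_coprime hcop2 this htors)
  obtain ⟨x₂, y₂, h₂', h2Q, hdup⟩ := add_self_of_eta_ne h hη0
  have h2Qtors : P.p • Point.some x₂ y₂ h₂' = 0 := by
    rw [← h2Q, smul_add, htors, add_zero]
  have h2Qfix : ∀ σ : Gal,
      σ • (Point.some x₂ y₂ h₂' : (P.freyCurve⁄Qbar).Point) = Point.some x₂ y₂ h₂' := by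
    intro σ
    rw [← h2Q, noFixed_smul_add, hfix σ]
  have hx₂A : x₂ ∈ A := no_torsion_of_not_mem A _ h₁ h₂ h₃ h₄ h₆ P.p hpu h₂' h2Qtors
  have hy₂A : y₂ ∈ A := no_torsion_of_not_mem_y A _ h₁ h₂ h₃ h₄ h₆ P.p hpu h₂' h2Qtors
  obtain ⟨⟨rx₂, hrx₂⟩, ⟨ry₂, hry₂⟩⟩ := noFixed_coords_rat P h₂' h2Qfix
  have ha₄lt := noFixed_val_a₄_lt P A hA
  have hnum : A.valuation (x₀ ^ 2 - (P.freyCurve.baseChange Qbar).a₄) = 1 := by
    rw [Valuation.map_sub_eq_of_lt_left _ (by rw [map_pow, hvx, one_pow]; exact ha₄lt), map_pow,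
      hvx, one_pow]
  have hηA : eta (P.freyCurve.baseChange Qbar) x₀ y₀ ∈ A := by
    rw [hη_eq]
    exact add_mem (mul_mem (ofNat_mem A 2) hy₀A) hx₀A
  have hvηle : A.valuation (eta (P.freyCurve.baseChange Qbar) x₀ y₀) ≤ 1 :=
    (A.valuation_le_one_iff _).2 hηA
  have hvx₂le : A.valuation x₂ ≤ 1 := (A.valuation_le_one_iff _).2 hx₂A
  have hvy₂le : A.valuation y₂ ≤ 1 := (A.valuation_le_one_iff _).2 hy₂A
  have hprod : A.valuation x₂ * A.valuation (eta (P.freyCurve.baseChange Qbar) x₀ y₀) ^ 2 = 1 := by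
    rw [← map_pow, ← map_mul, hdup, noFixed_dupNum, map_pow, hnum, one_pow]
  have hvη : A.valuation (eta (P.freyCurve.baseChange Qbar) x₀ y₀) = 1 := by
    by_contra hne
    have hlt := lt_of_le_of_ne hvηle hne
    have : A.valuation x₂ * A.valuation (eta (P.freyCurve.baseChange Qbar) x₀ y₀) ^ 2 < 1 := by
      calc A.valuation x₂ * A.valuation (eta (P.freyCurve.baseChange Qbar) x₀ y₀) ^ 2
          ≤ 1 * A.valuation (eta (P.freyCurve.baseChange Qbar) x₀ y₀) ^ 2 :=
            mul_le_mul' hvx₂le le_rfl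
        _ = A.valuation (eta (P.freyCurve.baseChange Qbar) x₀ y₀) ^ 2 := one_mul _
        _ < 1 := pow_lt_one₀ zero_le hlt two_ne_zero
    rw [hprod] at this
    exact lt_irrefl _ this
  have hvx₂ : A.valuation x₂ = 1 := by
    rw [hvη, one_pow, mul_one] at hprod
    exact hprod
  have hx₀1 : A.valuation (x₀ - 1) < 1 := by
    have := noFixed_rat_residue_two A hA rx (by rw [hrx]; exact hvx.le)
    rw [hrx] at this
    rcases this with h' | h'
    · rw [hvx] at h'
      exact absurd h' (lt_irrefl _)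
    · exact h'
  have hx₂1 : A.valuation (x₂ - 1) < 1 := by
    have := noFixed_rat_residue_two A hA rx₂ (by rw [hrx₂]; exact hvx₂.le)
    rw [hrx₂] at this
    rcases this with h' | h'
    · rw [hvx₂] at h'
      exact absurd h' (lt_irrefl _)
    · exact h'
  have hxx : A.valuation (x₂ - x₀) < 1 := by
    have e : x₂ - x₀ = (x₂ - 1) - (x₀ - 1) := by ring
    rw [e]
    exact Valuation.map_sub_lt _ hx₂1 hx₀1
  have hyrat : algebraMap ℚ Qbar (ry₂ - ry) = y₂ - y₀ := by rw [map_sub, hry₂, hry]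
  have hyyA : A.valuation (y₂ - y₀) ≤ 1 := (A.valuation_le_one_iff _).2 (sub_mem hy₂A hy₀A)
  rcases noFixed_rat_residue_two A hA (ry₂ - ry) (by rw [hyrat]; exact hyyA) with hc | hc
  · -- `2Q` and `Q` have the same reduction
    rw [hyrat] at hc
    have hne : Point.some x₂ y₂ h₂' ≠ Point.some x₀ y₀ h := by
      intro heq
      rw [← h2Q] at heq
      simp at heq
    obtain ⟨x'', y'', h'', hsub, hlt⟩ := key_nonsing_any A.valuation hva₁ hva₂ hva₃ h h₂'
      hvx₀le hvy₀le hxx hc hne (Or.inl hvη)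
    rw [← h2Q, add_sub_cancel_right, Point.some.injEq] at hsub
    rw [← hsub.1, hvx] at hlt
    exact lt_irrefl _ hlt
  · -- `2Q` and `-Q` have the same reduction
    rw [hyrat] at hc
    have hneg : (P.freyCurve.baseChange Qbar).toAffine.Nonsingular x₀
        ((P.freyCurve.baseChange Qbar).toAffine.negY x₀ y₀) :=
      (Affine.nonsingular_neg ..).mpr h
    have hnegQ : -(Point.some x₀ y₀ h : (P.freyCurve⁄Qbar).Point) =
        Point.some x₀ ((P.freyCurve.baseChange Qbar).toAffine.negY x₀ y₀) hneg :=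
      Point.neg_some h
    have hnegY : (P.freyCurve.baseChange Qbar).toAffine.negY x₀ y₀ = -y₀ - x₀ := by
      rw [Affine.negY]
      have e1 : (P.freyCurve.baseChange Qbar).toAffine.a₁ = 1 := frey_a₁ P Qbar
      have e3 : (P.freyCurve.baseChange Qbar).toAffine.a₃ = 0 := frey_a₃ P Qbar
      rw [e1, e3]
      ring
    have hvnegY : A.valuation ((P.freyCurve.baseChange Qbar).toAffine.negY x₀ y₀) ≤ 1 := by
      rw [hnegY, A.valuation_le_one_iff]
      exact sub_mem (neg_mem hy₀A) hx₀A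
    have hyy : A.valuation (y₂ - (P.freyCurve.baseChange Qbar).toAffine.negY x₀ y₀) < 1 := by
      have e : y₂ - (P.freyCurve.baseChange Qbar).toAffine.negY x₀ y₀ =
          ((y₂ - y₀ - 1) + 2 * y₀) + ((x₀ - 1) + 2) := by
        rw [hnegY]; ring
      rw [e]
      have h2y : A.valuation (2 * y₀) < 1 := by
        rw [map_mul]
        calc A.valuation 2 * A.valuation y₀ ≤ A.valuation 2 * 1 := mul_le_mul' le_rfl hvy₀le
          _ = A.valuation 2 := mul_one _
          _ < 1 := hv2lt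
      exact Valuation.map_add_lt _ (Valuation.map_add_lt _ hc h2y)
        (Valuation.map_add_lt _ hx₀1 hv2lt)
    have hne : Point.some x₂ y₂ h₂' ≠
        Point.some x₀ ((P.freyCurve.baseChange Qbar).toAffine.negY x₀ y₀) hneg := by
      intro heq
      rw [← h2Q, ← hnegQ] at heq
      have h3 : 3 • (Point.some x₀ y₀ h : (P.freyCurve⁄Qbar).Point) = 0 := by
        have e3 : 3 • (Point.some x₀ y₀ h : (P.freyCurve⁄Qbar).Point) =
            (Point.some x₀ y₀ h + Point.some x₀ y₀ h) + Point.some x₀ y₀ h := by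
          rw [show (3 : ℕ) = 2 + 1 from rfl, add_nsmul, two_nsmul, one_nsmul]
        rw [e3, heq, neg_add_cancel]
      exact hQ0 (noFixed_eq_zero_of_coprime hcop3 h3 htors)
    have hns : A.valuation (polyY (P.freyCurve.baseChange Qbar) x₀
        ((P.freyCurve.baseChange Qbar).toAffine.negY x₀ y₀)) = 1 := by
      have : polyY (P.freyCurve.baseChange Qbar) x₀
          ((P.freyCurve.baseChange Qbar).toAffine.negY x₀ y₀) =
          -eta (P.freyCurve.baseChange Qbar) x₀ y₀ := eta_negY _ x₀ y₀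
      rw [this, Valuation.map_neg, hvη]
    obtain ⟨x'', y'', h'', hsub, hlt⟩ := key_nonsing_any A.valuation hva₁ hva₂ hva₃ hneg h₂'
      hvx₀le hvnegY hxx hyy hne (Or.inl hns)
    have htors3 : P.p • Point.some x'' y'' h'' = 0 := by
      rw [← hsub, smul_sub, h2Qtors, ← hnegQ, smul_neg, htors, neg_zero, sub_zero]
    have hx''A : x'' ∈ A := no_torsion_of_not_mem A _ h₁ h₂ h₃ h₄ h₆ P.p hpu h'' htors3
    exact absurd hlt (not_lt.2 ((A.valuation_le_one_iff _).2 hx''A))

end Fixed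

/-- **S13, step 5** from the tropical statement at `2`. -/
theorem noFixed_of_trop
    (htrop : ∀ (P : FreyPackage) (A : ValuationSubring Qbar), A.LiesOverPrime 2 →
      NoFixedTrop P A) : StmtNoFixed := by
  intro P x hx
  obtain ⟨A, hA⟩ := Fermat.Agent.Common.exists_liesOverPrime 2 Nat.prime_two
  obtain ⟨Pt, hPt⟩ := x
  apply Subtype.ext
  change Pt = 0
  have hPt' := hPt
  rw [Submodule.mem_torsionBy_iff] at hPt'
  cases Pt with
  | zero => rfl
  | some x₀ y₀ h =>
    exfalso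
    have htors : P.p • (Point.some x₀ y₀ h : (P.freyCurve⁄Qbar).Point) = 0 := by
      rw [← natCast_zsmul]; exact hPt'
    have hfix : ∀ σ : Gal,
        σ • (Point.some x₀ y₀ h : (P.freyCurve⁄Qbar).Point) = Point.some x₀ y₀ h := by
      intro σ
      exact congrArg Subtype.val (hx σ)
    exact noFixed_core P A hA (htrop P A hA) h htors hfix

/-- **S13, step 5**: the Frey curve has no nonzero Galois-fixed `p`-torsion point. -/
theorem stmtNoFixed : StmtNoFixed := by
  refine noFixed_of_trop ?_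
  intro P A hA x y h htors hx
  obtain ⟨ha₃, ha₆, -, -, hb₂, ha₄, ha₄0, -⟩ := freyTwo_data P A hA
  have h20 : (2 : Qbar) ≠ 0 := by
    have := charZero_of_algebraRat Qbar
    exact two_ne_zero
  have h2 : A.valuation (2 : Qbar) ≤ 1 := (A.valuation_le_one_iff _).2 (ofNat_mem A 2)
  exact tropical_torsion_any A.valuation ha₃ ha₆ h20 h2 hb₂ ha₄ ha₄0 P.hp_odd h htors hx

end Fermat.Agent.S13
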